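import Fermat.Agent.CFT.Global.HasseNorm.Defs

/-!
# Approximate norms form a subgroup (brick B1 of the Hasse norm theorem)
-/

set_option autoImplicit false

open scoped NumberField WithZero
open IsDedekindDomain

namespace Fermat.Agent.CFT.Global.HasseNorm

variable (K L : Type*) [Field K] [NumberField K] [Field L] [NumberField L] [Algebra K L]

namespace Approx

variable {K}

/-- `exp (-n) ≤ 1`. -/
theorem exp_neg_natCast_le_one (n : ℕ) : (WithZero.exp (-(n : ℤ)) : ℤᵐ⁰) ≤ 1 := by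
  rw [← WithZero.exp_zero, WithZero.exp_le_exp]
  omega

/-- `exp (-(n+1)) < 1`. -/
theorem exp_neg_succ_lt_one (n : ℕ) : (WithZero.exp (-((n + 1 : ℕ) : ℤ)) : ℤᵐ⁰) < 1 := by
  rw [← WithZero.exp_zero, WithZero.exp_lt_exp]
  push_cast
  omega

/-- `(1 + ε)(1 + δ) - 1` is small if `ε`, `δ` are. -/
theorem val_mul_sub_one_le (v : HeightOneSpectrum (𝓞 K)) {x y : K} {n : ℕ}
    (hx : v.valuation K (x - 1) ≤ WithZero.exp (-(n : ℤ)))
    (hy : v.valuation K (y - 1) ≤ WithZero.exp (-(n : ℤ))) :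
    v.valuation K (x * y - 1) ≤ WithZero.exp (-(n : ℤ)) := by
  have h1 : x * y - 1 = (x - 1) * (y - 1) + ((x - 1) + (y - 1)) := by ring
  rw [h1]
  refine Valuation.map_add_le _ ?_ (Valuation.map_add_le _ hx hy)
  rw [map_mul]
  calc v.valuation K (x - 1) * v.valuation K (y - 1)
      ≤ WithZero.exp (-(n : ℤ)) * 1 :=
        mul_le_mul' hx (hy.trans (exp_neg_natCast_le_one n))
    _ = WithZero.exp (-(n : ℤ)) := mul_one _

/-- If `x - 1` is small then `v x = 1`. -/
theorem val_eq_one_of_sub_one (v : HeightOneSpectrum (𝓞 K)) {x : K} {n : ℕ}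
    (hx : v.valuation K (x - 1) ≤ WithZero.exp (-((n + 1 : ℕ) : ℤ))) :
    v.valuation K x = 1 := by
  have h1 : v.valuation K (x - 1) < 1 := lt_of_le_of_lt hx (exp_neg_succ_lt_one n)
  have h2 : x = 1 + (x - 1) := by ring
  rw [h2]
  exact (v.valuation K).map_one_add_of_lt h1

/-- `x⁻¹ - 1` is small if `x - 1` is. -/
theorem val_inv_sub_one_le (v : HeightOneSpectrum (𝓞 K)) {x : K} {n : ℕ}
    (hx : v.valuation K (x - 1) ≤ WithZero.exp (-((n + 1 : ℕ) : ℤ))) :
    v.valuation K (x⁻¹ - 1) ≤ WithZero.exp (-((n + 1 : ℕ) : ℤ)) := by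
  have hv : v.valuation K x = 1 := val_eq_one_of_sub_one v hx
  have hx0 : x ≠ 0 := by
    rintro rfl
    simp at hv
  have h1 : x⁻¹ - 1 = -(x - 1) * x⁻¹ := by
    field_simp
    ring
  rw [h1, map_mul, Valuation.map_neg, map_inv₀, hv, inv_one, mul_one]
  exact hx

end Approx

open Approx

variable {K} in
theorem approxNorm_one (v : HeightOneSpectrum (𝓞 K)) : ApproxNorm K L v 1 := by
  intro n
  refine ⟨1, one_ne_zero, ?_⟩
  simp

variable {K L} in
theorem ApproxNorm.ne_zero {v : HeightOneSpectrum (𝓞 K)} {b : K} (hb : ApproxNorm K L v b) :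
    b ≠ 0 := by
  rintro rfl
  obtain ⟨y, -, hy⟩ := hb 1
  rw [zero_div, zero_sub, Valuation.map_neg, map_one] at hy
  exact absurd hy (not_le.mpr (exp_neg_succ_lt_one 0))

variable {K L} in
theorem ApproxNorm.mul {v : HeightOneSpectrum (𝓞 K)} {b c : K} (hb : ApproxNorm K L v b)
    (hc : ApproxNorm K L v c) : ApproxNorm K L v (b * c) := by
  intro n
  obtain ⟨y, hy0, hy⟩ := hb n
  obtain ⟨z, hz0, hz⟩ := hc n
  refine ⟨y * z, mul_ne_zero hy0 hz0, ?_⟩
  have h1 : b * c / Algebra.norm K (y * z) = (b / Algebra.norm K y) * (c / Algebra.norm K z) := by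
    rw [map_mul, mul_div_mul_comm]
  rw [h1]
  exact val_mul_sub_one_le v hy hz

variable {K L} in
theorem ApproxNorm.inv {v : HeightOneSpectrum (𝓞 K)} {b : K} (hb : ApproxNorm K L v b) :
    ApproxNorm K L v b⁻¹ := by
  suffices H : ∀ n : ℕ, ∃ y : L, y ≠ 0 ∧
      v.valuation K (b⁻¹ / Algebra.norm K y - 1) ≤ WithZero.exp (-((n + 1 : ℕ) : ℤ)) by
    intro n
    obtain ⟨y, hy0, hy⟩ := H n
    refine ⟨y, hy0, hy.trans ?_⟩
    rw [WithZero.exp_le_exp]
    push_cast
    omega
  intro n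
  obtain ⟨y, hy0, hy⟩ := hb (n + 1)
  refine ⟨y⁻¹, inv_ne_zero hy0, ?_⟩
  have h0 : Algebra.norm K y⁻¹ = (Algebra.norm K y)⁻¹ := by
    refine eq_inv_of_mul_eq_one_left ?_
    rw [← map_mul, inv_mul_cancel₀ hy0, map_one]
  have h1 : b⁻¹ / Algebra.norm K y⁻¹ = (b / Algebra.norm K y)⁻¹ := by
    rw [h0, div_eq_mul_inv, div_eq_mul_inv, mul_inv]
  rw [h1]
  exact val_inv_sub_one_le v hy

/-- Norms are approximate norms. -/
theorem approxNorm_norm (v : HeightOneSpectrum (𝓞 K)) (y : L) (hy : y ≠ 0) :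
    ApproxNorm K L v (Algebra.norm K y) := by
  intro n
  refine ⟨y, hy, ?_⟩
  have h0 : Algebra.norm K y ≠ 0 := Algebra.norm_ne_zero_iff.mpr hy
  rw [div_self h0, sub_self, map_zero]
  exact zero_le'

/-- `[L:K]`-th powers are approximate norms. -/
theorem approxNorm_pow_finrank (v : HeightOneSpectrum (𝓞 K)) (b : K) (hb : b ≠ 0) :
    ApproxNorm K L v (b ^ Module.finrank K L) := by
  have h := approxNorm_norm K L v (algebraMap K L b)
    ((map_ne_zero_iff _ (algebraMap K L).injective).mpr hb)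
  rwa [Algebra.norm_algebraMap] at h

variable {K L} in
/-- Approximate norms are closed: a limit of approximate norms is an approximate norm. -/
theorem ApproxNorm.of_close {v : HeightOneSpectrum (𝓞 K)} {b : K}
    (h : ∀ n : ℕ, ∃ c : K, ApproxNorm K L v c ∧
      v.valuation K (b / c - 1) ≤ WithZero.exp (-(n : ℤ))) : ApproxNorm K L v b := by
  intro n
  obtain ⟨c, hc, hbc⟩ := h n
  obtain ⟨y, hy0, hy⟩ := hc n
  refine ⟨y, hy0, ?_⟩
  have hc0 : c ≠ 0 := hc.ne_zero
  have h1 : b / Algebra.norm K y = (b / c) * (c / Algebra.norm K y) := by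
    rw [div_mul_div_cancel₀ hc0]
  rw [h1]
  exact val_mul_sub_one_le v hbc hy

/-- The subgroup of `Kˣ` of approximate norms at `v`. -/
def approxNormSubgroup (v : HeightOneSpectrum (𝓞 K)) : Subgroup Kˣ where
  carrier := {b | ApproxNorm K L v (b : K)}
  one_mem' := approxNorm_one L v
  mul_mem' := fun {a b} ha hb => by
    simpa using ApproxNorm.mul ha hb
  inv_mem' := fun {a} ha => by
    simpa using ApproxNorm.inv ha

variable {K L} in
@[simp] theorem mem_approxNormSubgroup {v : HeightOneSpectrum (𝓞 K)} {b : Kˣ} :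
    b ∈ approxNormSubgroup K L v ↔ ApproxNorm K L v (b : K) := Iff.rfl

/-- The subgroup of `Kˣ` of elements that are approximate norms at every `v ∈ T`. -/
def approxNormOn (T : Set (HeightOneSpectrum (𝓞 K))) : Subgroup Kˣ :=
  ⨅ v ∈ T, approxNormSubgroup K L v

variable {K L} in
theorem mem_approxNormOn {T : Set (HeightOneSpectrum (𝓞 K))} {b : Kˣ} :
    b ∈ approxNormOn K L T ↔ ∀ v ∈ T, ApproxNorm K L v (b : K) := by
  simp [approxNormOn, Subgroup.mem_iInf]

end Fermat.Agent.CFT.Global.HasseNorm
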