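import Fermat.Agent.CFT.Global.HasseNorm.GaloisVal
import Fermat.Agent.CFT.Global.HasseNorm.Approx

/-!
# Local first inequality at inert places (brick B8)
-/

set_option autoImplicit false

open scoped NumberField WithZero
open IsDedekindDomain

namespace Fermat.Agent.CFT.Global.HasseNorm

variable (K L : Type*) [Field K] [NumberField K] [Field L] [NumberField L] [Algebra K L]

/-- The primes of `L` above `v` are unramified (valuation form). -/
def UnramAt (v : HeightOneSpectrum (𝓞 K)) : Prop :=
  ∀ w : HeightOneSpectrum (𝓞 L), w.under (𝓞 K) = v →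
    ∀ x : K, w.valuation L (algebraMap K L x) = v.valuation K x

/-- An element of `ℤᵐ⁰` whose `p`-th power (`p ≥ 2`) is `exp (-1)` does not exist. -/
theorem pow_ne_exp_neg_one_aux {p : ℕ} (hp : 2 ≤ p) (z : ℤᵐ⁰) :
    z ^ p ≠ WithZero.exp (-1 : ℤ) := by
  intro h
  have hz : z ≠ 0 := by
    rintro rfl
    rw [zero_pow (by omega)] at h
    exact WithZero.exp_ne_zero.symm h
  rw [← WithZero.exp_log hz, ← WithZero.exp_nsmul, WithZero.exp_inj] at h
  have h2 : (p : ℤ) * z.log = -1 := by simpa using h
  have h3 : (p : ℤ) ∣ 1 := ⟨-z.log, by linarith⟩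
  have h4 : (p : ℤ) ≤ 1 := Int.le_of_dvd one_pos h3
  omega

/-- At a non-split unramified place of a Galois extension of degree `p > 1`, a uniformiser is not
an approximate norm. -/
theorem exists_not_approxNorm_of_nonsplit_unram [IsGalois K L] {p : ℕ} (hp : p.Prime)
    (hdeg : Module.finrank K L = p) (v : HeightOneSpectrum (𝓞 K)) (hv : Nonsplit K L v)
    (hun : UnramAt K L v) : ∃ b : K, b ≠ 0 ∧ ¬ ApproxNorm K L v b := by
  obtain ⟨π, hπ⟩ := v.valuation_exists_uniformizer K
  have hπ0 : π ≠ 0 := by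
    rintro rfl
    rw [map_zero] at hπ
    exact WithZero.exp_ne_zero hπ.symm
  refine ⟨π, hπ0, fun hA => ?_⟩
  obtain ⟨y, hy0, hy⟩ := hA 1
  have hN0 : Algebra.norm K y ≠ 0 := Algebra.norm_ne_zero_iff.mpr hy0
  -- `v (π / N y) = 1`
  have hlt : v.valuation K (π / Algebra.norm K y - 1) < 1 := by
    refine lt_of_le_of_lt hy ?_
    rw [← WithZero.exp_zero]
    exact WithZero.exp_lt_exp.mpr (by norm_num)
  have h1 : v.valuation K (π / Algebra.norm K y) = 1 := by
    have h2 := Valuation.map_one_add_of_lt (v.valuation K) hlt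
    simpa using h2
  have hvN : v.valuation K (Algebra.norm K y) = WithZero.exp (-1 : ℤ) := by
    rw [map_div₀, div_eq_one_iff_eq ((Valuation.ne_zero_iff _).mpr hN0)] at h1
    rw [← h1, hπ]
  -- pass to `L`
  obtain ⟨w, hw⟩ := exists_under_eq K L v
  have hwN : w.valuation L (algebraMap K L (Algebra.norm K y)) = WithZero.exp (-1 : ℤ) := by
    rw [hun w hw, hvN]
  rw [valuation_norm K L w y] at hwN
  have hconst : ∀ τ : L ≃ₐ[K] L, (galSmul K L τ w).valuation L y = w.valuation L y := by
    intro τ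
    have : galSmul K L τ w = w := hv _ _ ((under_galSmul K L τ w).trans hw) hw
    rw [this]
  rw [Finset.prod_congr rfl (fun τ _ => hconst τ), Finset.prod_const, Finset.card_univ,
    ← Nat.card_eq_fintype_card, IsGalois.card_aut_eq_finrank, hdeg] at hwN
  exact pow_ne_exp_neg_one_aux hp.two_le _ hwN

end Fermat.Agent.CFT.Global.HasseNorm
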