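import Fermat.Agent.CFT.Global.HasseNorm.UnitsH1
import Fermat.Agent.CFT.Global.HasseNorm.Inert

/-!
# The three external inputs of the Hasse norm theorem, as `Prop`-valued definitions

* `NormIndexIneq K L` : the universal norm-index inequality (analytic; second inequality),
  in ideal form.
* `UnitHerbrand K L p σ` : the Herbrand quotient of the `T`-units of `L` (`L/K` cyclic of odd
  prime degree `p`, generator `σ`).
* `LocalFirstIneqRam K L` : at a ramified place not every element is a local norm.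
-/

set_option autoImplicit false

open scoped NumberField WithZero
open IsDedekindDomain

namespace Fermat.Agent.CFT.Global.HasseNorm

universe u v

variable (K : Type u) (L : Type v) [Field K] [NumberField K] [Field L] [NumberField L]
  [Algebra K L]

/-- **Universal norm-index inequality** (second inequality, analytic form): a finite abelian
quotient of the ideals prime to `𝔪` that is trivial on the ray mod `𝔪` and on the primes having a
degree-one prime of `L` above them has order at most `[L:K]`. -/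
def NormIndexIneq : Prop :=
  ∀ 𝔪 : Ideal (𝓞 K), 𝔪 ≠ ⊥ → ∀ (A : Type u) [CommGroup A] [Finite A] (φ : Ideal (𝓞 K) → A),
    (∀ I J : Ideal (𝓞 K), I ≠ ⊥ → J ≠ ⊥ → φ (I * J) = φ I * φ J) →
    (∀ x : A, ∃ I : Ideal (𝓞 K), I ≠ ⊥ ∧ IsCoprime I 𝔪 ∧ φ I = x) →
    (∀ a : 𝓞 K, a ≠ 0 → a - 1 ∈ 𝔪 → φ (Ideal.span {a}) = 1) →
    (∀ 𝔭 : Ideal (𝓞 K), 𝔭.IsPrime → 𝔭 ≠ ⊥ → IsCoprime 𝔭 𝔪 →
      (∃ 𝔓 : Ideal (𝓞 L), 𝔓.IsPrime ∧ 𝔓.LiesOver 𝔭 ∧ 𝔓.inertiaDeg (𝓞 K) = 1) → φ 𝔭 = 1) →
    Nat.card A ≤ Module.finrank K L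

/-- **Herbrand quotient of `T`-units** for a cyclic extension of odd prime degree `p` with
generator `σ`: `[U_T : N U_{L,T}] · p = p ^ t · [ker N : (σ - 1) U_{L,T}]`, where `t` is the number
of `v ∈ T` with a single prime of `L` above. -/
def UnitHerbrand (p : ℕ) (σ : L ≃ₐ[K] L) : Prop :=
  ∀ T : Finset (HeightOneSpectrum (𝓞 K)),
    (normUnits K L (T : Set (HeightOneSpectrum (𝓞 K)))).relIndex
        ((T : Set (HeightOneSpectrum (𝓞 K))).unit K) ≠ 0 ∧
    (((above K L (T : Set (HeightOneSpectrum (𝓞 K)))).unit L).map (subOneHom K L σ)).relIndex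
        ((above K L (T : Set (HeightOneSpectrum (𝓞 K)))).unit L ⊓ (normHom K L).ker) ≠ 0 ∧
    (normUnits K L (T : Set (HeightOneSpectrum (𝓞 K)))).relIndex
        ((T : Set (HeightOneSpectrum (𝓞 K))).unit K) * p =
      p ^ {v : HeightOneSpectrum (𝓞 K) | v ∈ T ∧ Nonsplit K L v}.ncard *
        (((above K L (T : Set (HeightOneSpectrum (𝓞 K)))).unit L).map (subOneHom K L σ)).relIndex
          ((above K L (T : Set (HeightOneSpectrum (𝓞 K)))).unit L ⊓ (normHom K L).ker)

/-- **Local first inequality at ramified places**: if `v` has a single prime of `L` above it and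
ramifies in `L`, some element of `Kˣ` is not an approximate norm at `v`.  (The unramified nonsplit
case is `exists_not_approxNorm_of_nonsplit_unram`.) -/
def LocalFirstIneqRam : Prop :=
  ∀ v : HeightOneSpectrum (𝓞 K), Nonsplit K L v → ¬ UnramAt K L v →
    ∃ b : K, b ≠ 0 ∧ ¬ ApproxNorm K L v b

variable {K L} in
/-- The local first inequality at all nonsplit places implies `LocalFirstIneqRam`. -/
theorem LocalFirstIneqRam.of_nonsplit
    (h : ∀ v : HeightOneSpectrum (𝓞 K), Nonsplit K L v → ∃ b : K, b ≠ 0 ∧ ¬ ApproxNorm K L v b) :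
    LocalFirstIneqRam K L := fun v hv _ => h v hv

end Fermat.Agent.CFT.Global.HasseNorm
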