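import Fermat.Agent.CFT.Global.HasseNorm.Hyp
import Fermat.Agent.CFT.Global.TUnitsHerbrand

/-!
# Adapter (a) for the Hasse norm theorem: `UnitHerbrand K L p σ` for `p` odd (helper87)

`unitHerbrand_of_odd` derives the Prop-valued hypothesis `UnitHerbrand K L p σ` of
`Hyp.lean` from helper187's Herbrand quotient of `T`-units (`TUnitsHerbrand.hq_tunits`):

* the set `above K L T` of primes of `L` over a finite set `T` is finite and Galois-stable;
* infinite places are unramified in odd degree;
* `E^G = U_T`, `N E = N(U_{L,T})`, `ker N`, `(σ - 1) E` computed inside `Lˣ`;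
* for prime degree the product of the stabiliser orders over the orbits is `p ^ t`.

Auxiliary lemmas live in the namespace `Fermat.Agent.CFT.Global.HasseNorm.Adapters`.
-/

set_option autoImplicit false
set_option linter.unusedSectionVars false
set_option linter.style.haveILetI false

open scoped NumberField WithZero Pointwise
open IsDedekindDomain NumberField

namespace Fermat.Agent.CFT.Global.HasseNorm

namespace Adapters

open Fermat.Agent.CFT.Global.GalPrime Fermat.Agent.CFT.Global.TUnitsHerbrand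
  Fermat.Agent.CFT.Global.PermHerbrand

universe u v

variable (K : Type u) (L : Type v) [Field K] [NumberField K] [Field L] [NumberField L]
  [Algebra K L]

/-- `τ(w)` lies over the same prime of `K` as `w`. -/
theorem under_galPrime (τ : L ≃ₐ[K] L) (w : HeightOneSpectrum (𝓞 L)) :
    (galPrime τ w).under (𝓞 K) = w.under (𝓞 K) := by
  ext x
  show algebraMap (𝓞 K) (𝓞 L) x ∈ (galPrime τ w).asIdeal ↔ algebraMap (𝓞 K) (𝓞 L) x ∈ w.asIdeal
  rw [mem_galPrime]
  have e : galRing τ⁻¹ (algebraMap (𝓞 K) (𝓞 L) x) = algebraMap (𝓞 K) (𝓞 L) x := by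
    apply RingOfIntegers.ext
    rw [coe_galRing]
    exact AlgEquiv.commutes τ⁻¹ (x : K)
  rw [e]

/-- The prime `τ(w)` of helper187 is Mathlib's pointwise `τ • w`. -/
theorem galPrime_asIdeal_eq_smul (τ : L ≃ₐ[K] L) (w : HeightOneSpectrum (𝓞 L)) :
    (galPrime τ w).asIdeal = τ • w.asIdeal := by
  rw [galPrime_asIdeal, Ideal.pointwise_smul_def]
  rfl

/-- `Gal(L/K)` is transitive on the primes above a given prime of `K`. -/
theorem exists_galPrime_eq [IsGalois K L] (w w' : HeightOneSpectrum (𝓞 L))
    (h : w.under (𝓞 K) = w'.under (𝓞 K)) : ∃ τ : L ≃ₐ[K] L, galPrime τ w = w' := by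
  have h0 : w.asIdeal.LiesOver (w.under (𝓞 K)).asIdeal := ⟨rfl⟩
  have h1 : w'.asIdeal.LiesOver (w.under (𝓞 K)).asIdeal := by rw [h]; exact ⟨rfl⟩
  obtain ⟨τ, hτ⟩ := Ideal.exists_smul_eq_of_isGaloisGroup (w.under (𝓞 K)).asIdeal
    w.asIdeal w'.asIdeal (L ≃ₐ[K] L)
  refine ⟨τ, ?_⟩
  ext1
  rw [galPrime_asIdeal_eq_smul]
  exact hτ

/-- Every finite place of `K` has a place of `L` above it. -/
theorem exists_under_eq' (v : HeightOneSpectrum (𝓞 K)) :
    ∃ w : HeightOneSpectrum (𝓞 L), w.under (𝓞 K) = v := by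
  have : v.asIdeal.IsMaximal := v.isMaximal
  obtain ⟨P, hP, hPv⟩ := Ideal.exists_maximal_ideal_liesOver_of_isIntegral (S := 𝓞 L) v.asIdeal
  have hPbot : P ≠ ⊥ := by
    rintro rfl
    have := hPv.over
    rw [Ideal.under_bot] at this
    exact v.ne_bot this
  refine ⟨⟨P, hP.isPrime, hPbot⟩, ?_⟩
  ext1
  exact hPv.over.symm

/-- The primes of `L` above a finite set of primes of `K` form a finite set. -/
theorem finite_above (T : Finset (HeightOneSpectrum (𝓞 K))) :
    (above K L (T : Set (HeightOneSpectrum (𝓞 K)))).Finite := by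
  classical
  have h1 : above K L (T : Set (HeightOneSpectrum (𝓞 K))) =
      ⋃ v ∈ T, {w : HeightOneSpectrum (𝓞 L) | w.under (𝓞 K) = v} := by
    ext w
    simp [above]
  rw [h1]
  refine Set.Finite.biUnion T.finite_toSet (fun v _ => ?_)
  have : v.asIdeal.IsMaximal := v.isMaximal
  have hfin := IsDedekindDomain.primesOver_finite v.asIdeal (𝓞 L)
  refine Set.Finite.of_finite_image (f := fun w : HeightOneSpectrum (𝓞 L) => w.asIdeal)
    (hfin.subset ?_) (fun w _ w' _ h => HeightOneSpectrum.ext h)
  rintro _ ⟨w, hw, rfl⟩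
  refine ⟨w.isPrime, ⟨?_⟩⟩
  rw [← hw]
  rfl

/-- For `x ∈ K` and a prime `w` of `L`: `w(x) = 1 ↔ v(x) = 1`, `v` the prime below `w`. -/
theorem valuation_algebraMap_eq_one_iff (w : HeightOneSpectrum (𝓞 L)) (x : K) :
    w.valuation L (algebraMap K L x) = 1 ↔ (w.under (𝓞 K)).valuation K x = 1 := by
  have : w.asIdeal.LiesOver (w.under (𝓞 K)).asIdeal := ⟨rfl⟩
  rw [← HeightOneSpectrum.valuation_liesOver L (w.under (𝓞 K)) w x]
  exact pow_eq_one_iff_left
    (Ideal.IsDedekindDomain.ramificationIdx'_ne_zero_of_liesOver w.asIdeal (w.under (𝓞 K)).ne_bot)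

/-- `x ∈ Kˣ` is a `T`-unit iff its image in `Lˣ` is a `T_L`-unit. -/
theorem map_mem_unit_above_iff (T : Set (HeightOneSpectrum (𝓞 K))) (x : Kˣ) :
    Units.map (algebraMap K L : K →* L) x ∈ (above K L T).unit L ↔ x ∈ T.unit K := by
  constructor
  · intro h v hv
    obtain ⟨w, rfl⟩ := exists_under_eq' K L v
    exact (valuation_algebraMap_eq_one_iff K L w (x : K)).1 (h w hv)
  · intro h w hw
    exact (valuation_algebraMap_eq_one_iff K L w (x : K)).2 (h _ hw)

/-- The set of primes of `L` above `T` is Galois-stable. -/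
theorem galStable_above (T : Set (HeightOneSpectrum (𝓞 K))) : GalStable K L (above K L T) := by
  intro τ w hw
  show (galPrime τ w).under (𝓞 K) ∈ T
  rw [under_galPrime]
  exact hw

/-- Infinite places are unramified in a Galois extension of odd degree. -/
theorem isUnramified_of_odd_finrank [IsGalois K L] (h : Odd (Module.finrank K L))
    (w : InfinitePlace L) : w.IsUnramified K := by
  by_contra hw
  exact (Nat.not_even_iff_odd.2 h) (InfinitePlace.even_finrank_of_not_isUnramified hw)

/-- Transport of a relative index from additive subgroups of `Additive X` to subgroups of `Y`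
along an injective homomorphism `X →* Y`. -/
theorem relIndex_eq_of_map {X Y : Type*} [Group X] [Group Y] (j : X →* Y)
    (hj : Function.Injective j) (A B : AddSubgroup (Additive X)) (A' B' : Subgroup Y)
    (hA : ∀ y : Y, y ∈ A' ↔ ∃ x : X, Additive.ofMul x ∈ A ∧ j x = y)
    (hB : ∀ y : Y, y ∈ B' ↔ ∃ x : X, Additive.ofMul x ∈ B ∧ j x = y) :
    A.relIndex B = A'.relIndex B' := by
  have e1 : A' = (AddSubgroup.toSubgroup' A).map j := by
    ext y
    rw [hA]
    rfl
  have e2 : B' = (AddSubgroup.toSubgroup' B).map j := by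
    ext y
    rw [hB]
    rfl
  rw [e1, e2, Subgroup.relIndex_map_map_of_injective _ _ hj]
  rfl

section Translate

variable {K L}
variable [IsGalois K L] {T : Set (HeightOneSpectrum (𝓞 K))}

/-- Coercion of a finite sum in `Additive (TL.unit L)` to `L`. -/
theorem coe_toMul_sum {TL : Set (HeightOneSpectrum (𝓞 L))} {ι : Type*} (s : Finset ι)
    (f : ι → Additive (TL.unit L)) :
    ((((∑ i ∈ s, f i).toMul : TL.unit L) : Lˣ) : L) =
      ∏ i ∈ s, ((((f i).toMul : TL.unit L) : Lˣ) : L) := by
  classical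
  induction s using Finset.induction_on with
  | empty => simp
  | insert a s ha ih =>
    rw [Finset.sum_insert ha, Finset.prod_insert ha, ← ih]
    rfl

/-- The additive norm on the `T_L`-units is the field norm. -/
theorem coe_normHom_tunits (hst : GalStable K L (above K L T))
    (z : (above K L T).unit L) :
    letI := tAct hst
    ((((Lib.Herbrand.normHom (L ≃ₐ[K] L) (Additive ((above K L T).unit L))
      (Additive.ofMul z)).toMul : (above K L T).unit L) : Lˣ) : L) =
      algebraMap K L (Algebra.norm K ((z : Lˣ) : L)) := by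
  letI := tAct hst
  rw [Lib.Herbrand.normHom_apply, coe_toMul_sum, Algebra.norm_eq_prod_automorphisms]
  rfl

/-- The additive `σ - 1` on the `T_L`-units is `y ↦ σ y / y`. -/
theorem coe_subOneHom_tunits (hst : GalStable K L (above K L T)) (σ : L ≃ₐ[K] L)
    (z : (above K L T).unit L) :
    letI := tAct hst
    ((((Lib.Herbrand.subOneHom (Additive ((above K L T).unit L)) σ
      (Additive.ofMul z)).toMul : (above K L T).unit L) : Lˣ) : L) =
      σ ((z : Lˣ) : L) / ((z : Lˣ) : L) := by
  letI := tAct hst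
  have h1 : ((Lib.Herbrand.subOneHom (Additive ((above K L T).unit L)) σ
      (Additive.ofMul z)).toMul : (above K L T).unit L) = galTU hst σ z / z := rfl
  rw [h1, Subgroup.coe_div, Units.val_div_eq_div_val, coe_galTU]

/-- `[E^G : N E] = [U_T : N U_{L,T}]`. -/
theorem hq_subOne_norm_eq (hst : GalStable K L (above K L T)) {σ : L ≃ₐ[K] L}
    (hσ : ∀ τ : L ≃ₐ[K] L, τ ∈ Subgroup.zpowers σ) :
    letI := tAct hst
    Lib.Herbrand.hq (Lib.Herbrand.subOneHom (Additive ((above K L T).unit L)) σ)
      (Lib.Herbrand.normHom (L ≃ₐ[K] L) (Additive ((above K L T).unit L))) =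
    (normUnits K L T).relIndex (T.unit K) := by
  letI := tAct hst
  have hι : Function.Injective (Units.map (algebraMap K L : K →* L)) :=
    Units.map_injective (algebraMap K L).injective
  rw [← Subgroup.relIndex_map_map_of_injective _ _ hι]
  unfold Lib.Herbrand.hq
  refine relIndex_eq_of_map ((above K L T).unit L).subtype (Subgroup.subtype_injective _)
    _ _ _ _ ?_ ?_
  · -- range of the norm
    intro y
    constructor
    · rintro ⟨_, ⟨z, hz, rfl⟩, rfl⟩
      refine ⟨(Lib.Herbrand.normHom (L ≃ₐ[K] L) (Additive ((above K L T).unit L))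
        (Additive.ofMul ⟨z, hz⟩)).toMul, ⟨Additive.ofMul ⟨z, hz⟩, rfl⟩, ?_⟩
      apply Units.ext
      exact coe_normHom_tunits hst ⟨z, hz⟩
    · rintro ⟨x, ⟨e, he⟩, rfl⟩
      refine ⟨normHom K L (e.toMul : Lˣ), ⟨_, (e.toMul).2, rfl⟩, ?_⟩
      apply Units.ext
      have h1 := coe_normHom_tunits hst e.toMul
      rw [show Additive.ofMul e.toMul = e from rfl, he] at h1
      exact h1.symm
  · -- kernel of `σ - 1`
    intro y
    constructor
    · rintro ⟨k, hk, rfl⟩
      have hmem : Units.map (algebraMap K L : K →* L) k ∈ (above K L T).unit L :=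
        (map_mem_unit_above_iff K L T k).2 hk
      refine ⟨⟨_, hmem⟩, ?_, rfl⟩
      rw [Lib.Herbrand.mem_ker_subOneHom_iff hσ]
      intro τ
      apply congrArg Additive.ofMul
      apply unit_ext
      exact AlgEquiv.commutes τ (k : K)
    · rintro ⟨x, hx, rfl⟩
      rw [Lib.Herbrand.mem_ker_subOneHom_iff hσ] at hx
      have hfix : ∀ τ : L ≃ₐ[K] L, τ ((x : Lˣ) : L) = ((x : Lˣ) : L) := by
        intro τ
        exact congrArg (fun a : Additive ((above K L T).unit L) =>
          (((a.toMul : (above K L T).unit L) : Lˣ) : L)) (hx τ)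
      obtain ⟨k, hk⟩ :=
        (IsGalois.mem_range_algebraMap_iff_fixed (F := K) (E := L) ((x : Lˣ) : L)).2 hfix
      have hk0 : k ≠ 0 := by
        rintro rfl
        rw [map_zero] at hk
        exact (x : Lˣ).ne_zero hk.symm
      have hmap : Units.map (algebraMap K L : K →* L) (Units.mk0 k hk0) = (x : Lˣ) :=
        Units.ext hk
      exact ⟨Units.mk0 k hk0, (map_mem_unit_above_iff K L T _).1 (hmap ▸ x.2), hmap⟩

/-- `[ker N : (σ - 1) E] = [U_{L,T} ∩ ker N : (σ - 1) U_{L,T}]`. -/
theorem hq_norm_subOne_eq (hst : GalStable K L (above K L T)) (σ : L ≃ₐ[K] L) :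
    letI := tAct hst
    Lib.Herbrand.hq (Lib.Herbrand.normHom (L ≃ₐ[K] L) (Additive ((above K L T).unit L)))
      (Lib.Herbrand.subOneHom (Additive ((above K L T).unit L)) σ) =
    (((above K L T).unit L).map (subOneHom K L σ)).relIndex
      ((above K L T).unit L ⊓ (normHom K L).ker) := by
  letI := tAct hst
  have hι : Function.Injective (Units.map (algebraMap K L : K →* L)) :=
    Units.map_injective (algebraMap K L).injective
  unfold Lib.Herbrand.hq
  refine relIndex_eq_of_map ((above K L T).unit L).subtype (Subgroup.subtype_injective _)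
    _ _ _ _ ?_ ?_
  · -- range of `σ - 1`
    intro y
    constructor
    · rintro ⟨z, hz, rfl⟩
      refine ⟨(Lib.Herbrand.subOneHom (Additive ((above K L T).unit L)) σ
        (Additive.ofMul ⟨z, hz⟩)).toMul, ⟨Additive.ofMul ⟨z, hz⟩, rfl⟩, ?_⟩
      apply Units.ext
      rw [coe_subOneHom]
      exact coe_subOneHom_tunits hst σ ⟨z, hz⟩
    · rintro ⟨x, ⟨e, he⟩, rfl⟩
      refine ⟨(e.toMul : Lˣ), (e.toMul).2, ?_⟩
      apply Units.ext
      rw [coe_subOneHom]
      have h1 := coe_subOneHom_tunits hst σ e.toMul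
      rw [show Additive.ofMul e.toMul = e from rfl, he] at h1
      exact h1.symm
  · -- kernel of the norm
    intro y
    constructor
    · rintro ⟨hy, hN⟩
      refine ⟨⟨y, hy⟩, ?_, rfl⟩
      rw [AddMonoidHom.mem_ker]
      have h2 : Algebra.norm K ((y : Lˣ) : L) = 1 := by
        have := congrArg (fun a : Kˣ => (a : K)) (MonoidHom.mem_ker.1 hN)
        exact this
      have h3 : ((Lib.Herbrand.normHom (L ≃ₐ[K] L) (Additive ((above K L T).unit L))
          (Additive.ofMul ⟨y, hy⟩)).toMul : (above K L T).unit L) = 1 := by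
        apply unit_ext
        rw [coe_normHom_tunits hst ⟨y, hy⟩, h2, map_one]
        rfl
      exact congrArg Additive.ofMul h3
    · rintro ⟨x, hx, rfl⟩
      refine ⟨x.2, ?_⟩
      show (x : Lˣ) ∈ (normHom K L).ker
      rw [MonoidHom.mem_ker]
      rw [AddMonoidHom.mem_ker] at hx
      apply hι
      apply Units.ext
      have h1 := coe_normHom_tunits hst x
      rw [hx] at h1
      rw [map_one]
      exact h1.symm

end Translate

section Product

variable {K L}
variable [IsGalois K L]

/-- For prime degree, the stabiliser count of a prime `w` is `p` if `w` is the only prime above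
its restriction and `1` otherwise. -/
theorem kap_eq_ite {p : ℕ} (hp : p.Prime) (hdeg : Module.finrank K L = p)
    {T : Set (HeightOneSpectrum (𝓞 K))} (hst : GalStable K L (above K L T)) (w : above K L T)
    [Decidable (Nonsplit K L (w.1.under (𝓞 K)))] :
    letI := primeAct hst
    kap (L ≃ₐ[K] L) w = if Nonsplit K L (w.1.under (𝓞 K)) then p else 1 := by
  classical
  letI := primeAct hst
  have hcard : Nat.card (L ≃ₐ[K] L) = p := by rw [IsGalois.card_aut_eq_finrank, hdeg]
  rw [kap_eq_card_stabilizer]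
  have hdvd : Nat.card (MulAction.stabilizer (L ≃ₐ[K] L) w) ∣ p :=
    hcard ▸ Subgroup.card_subgroup_dvd_card _
  split_ifs with hns
  · have htop : MulAction.stabilizer (L ≃ₐ[K] L) w = ⊤ := by
      rw [eq_top_iff]
      intro τ _
      rw [MulAction.mem_stabilizer_iff]
      apply Subtype.ext
      exact hns _ _ (under_galPrime K L τ w.1) rfl
    rw [htop, Subgroup.card_top, hcard]
  · rcases (Nat.dvd_prime hp).1 hdvd with h1 | h1
    · exact h1
    · exfalso
      apply hns
      have htop : MulAction.stabilizer (L ≃ₐ[K] L) w = ⊤ :=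
        Subgroup.eq_top_of_card_eq _ (h1.trans hcard.symm)
      have hfix : ∀ τ : L ≃ₐ[K] L, galPrime τ w.1 = w.1 := by
        intro τ
        have h2 : τ ∈ MulAction.stabilizer (L ≃ₐ[K] L) w := htop ▸ Subgroup.mem_top τ
        exact congrArg Subtype.val (MulAction.mem_stabilizer_iff.1 h2)
      intro w₁ w₂ h₁ h₂
      obtain ⟨τ₁, hτ₁⟩ := exists_galPrime_eq K L w.1 w₁ h₁.symm
      obtain ⟨τ₂, hτ₂⟩ := exists_galPrime_eq K L w.1 w₂ h₂.symm
      rw [← hτ₁, ← hτ₂, hfix, hfix]

/-- For prime degree `p`, the product of the stabiliser orders over the Galois orbits of the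
primes above `T` is `p ^ t`, `t` the number of `v ∈ T` with a single prime above. -/
theorem prod_kap_eq {p : ℕ} (hp : p.Prime) (hdeg : Module.finrank K L = p)
    (T : Finset (HeightOneSpectrum (𝓞 K)))
    (hst : GalStable K L (above K L (T : Set (HeightOneSpectrum (𝓞 K)))))
    [Fintype (@MulAction.orbitRel.Quotient (L ≃ₐ[K] L)
      (above K L (T : Set (HeightOneSpectrum (𝓞 K)))) _ (primeAct hst))] :
    letI := primeAct hst
    ∏ O : MulAction.orbitRel.Quotient (L ≃ₐ[K] L) (above K L (T : Set (HeightOneSpectrum (𝓞 K)))),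
        kap (L ≃ₐ[K] L) O.out =
      p ^ {v : HeightOneSpectrum (𝓞 K) | v ∈ T ∧ Nonsplit K L v}.ncard := by
  classical
  letI := primeAct hst
  have hSc : {v : HeightOneSpectrum (𝓞 K) | v ∈ T ∧ Nonsplit K L v}.ncard =
      (T.filter (fun v => Nonsplit K L v)).card := by
    rw [← Set.ncard_coe_finset]
    congr 1
    ext v
    simp
  have h2 : ∏ v ∈ T, (if Nonsplit K L v then p else 1) =
      p ^ (T.filter (fun v => Nonsplit K L v)).card := by
    rw [Finset.prod_ite, Finset.prod_const, Finset.prod_const_one, mul_one]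
  rw [hSc, ← h2]
  refine Finset.prod_bij (fun O _ => (Quotient.out O).1.under (𝓞 K)) ?_ ?_ ?_ ?_
  · intro O _
    exact Finset.mem_coe.1 (Quotient.out O).2
  · intro O _ O' _ h
    obtain ⟨τ, hτ⟩ := exists_galPrime_eq K L (Quotient.out O).1 (Quotient.out O').1 h
    have h3 : (⟦Quotient.out O'⟧ : MulAction.orbitRel.Quotient (L ≃ₐ[K] L)
        (above K L (T : Set (HeightOneSpectrum (𝓞 K))))) = ⟦Quotient.out O⟧ := by
      apply Quotient.sound
      exact ⟨τ, Subtype.ext hτ⟩
    rw [Quotient.out_eq, Quotient.out_eq] at h3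
    exact h3.symm
  · intro v hv
    obtain ⟨w, hw⟩ := exists_under_eq' K L v
    have hwT : w ∈ above K L (T : Set (HeightOneSpectrum (𝓞 K))) := by
      show w.under (𝓞 K) ∈ (T : Set (HeightOneSpectrum (𝓞 K)))
      rw [hw]
      exact hv
    refine ⟨⟦⟨w, hwT⟩⟧, Finset.mem_univ _, ?_⟩
    obtain ⟨τ, hτ⟩ := Quotient.mk_out (s := MulAction.orbitRel (L ≃ₐ[K] L)
        (above K L (T : Set (HeightOneSpectrum (𝓞 K))))) ⟨w, hwT⟩
    have h4 := congrArg Subtype.val hτ
    simp only at h4
    rw [← h4]
    exact (under_galPrime K L τ w).trans hw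
  · intro O _
    exact kap_eq_ite hp hdeg hst (Quotient.out O)

end Product

end Adapters

/-- **Adapter (a)**: the Herbrand quotient of the `T`-units of a cyclic extension of odd prime
degree, in the form required by `hasse_norm` (from helper187's `hq_tunits`). -/
theorem unitHerbrand_of_odd (K : Type*) (L : Type*) [Field K] [NumberField K] [Field L]
    [NumberField L] [Algebra K L] [IsGalois K L] {p : ℕ} (hp : p.Prime) (hodd : Odd p)
    (hdeg : Module.finrank K L = p) (σ : L ≃ₐ[K] L)
    (hσ : ∀ τ : L ≃ₐ[K] L, τ ∈ Subgroup.zpowers σ) : UnitHerbrand K L p σ := by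
  classical
  intro T
  have hst : TUnitsHerbrand.GalStable K L (above K L (T : Set (HeightOneSpectrum (𝓞 K)))) :=
    Adapters.galStable_above K L _
  haveI : Fintype (above K L (T : Set (HeightOneSpectrum (𝓞 K)))) :=
    (Adapters.finite_above K L T).fintype
  letI := TUnitsHerbrand.tAct hst
  letI := TUnitsHerbrand.primeAct hst
  haveI : Fintype (MulAction.orbitRel.Quotient (L ≃ₐ[K] L)
      (above K L (T : Set (HeightOneSpectrum (𝓞 K))))) := Fintype.ofFinite _
  have hunr : ∀ w : InfinitePlace L, w.IsUnramified K :=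
    Adapters.isUnramified_of_odd_finrank K L (hdeg ▸ hodd)
  obtain ⟨h1, h2, h3⟩ := TUnitsHerbrand.hq_tunits hst hσ hunr
  rw [Adapters.hq_subOne_norm_eq hst hσ] at h1 h3
  rw [Adapters.hq_norm_subOne_eq hst σ] at h2 h3
  rw [Adapters.prod_kap_eq hp hdeg T hst] at h3
  have hcard : Fintype.card (L ≃ₐ[K] L) = p := by
    rw [← Nat.card_eq_fintype_card, IsGalois.card_aut_eq_finrank, hdeg]
  rw [hcard] at h3
  exact ⟨h1, h2, h3⟩

end Fermat.Agent.CFT.Global.HasseNorm
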