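import Fermat.Agent.CFT.Global.HasseNorm.Defs

/-!
# Galois action on the finite places of `L` and valuations of norms (brick B6)
-/

set_option autoImplicit false
set_option linter.unusedSectionVars false

open scoped NumberField WithZero Pointwise
open IsDedekindDomain

namespace Fermat.Agent.CFT.Global.HasseNorm

variable (K L : Type*) [Field K] [NumberField K] [Field L] [NumberField L] [Algebra K L]

theorem coe_galSmul_int (τ : L ≃ₐ[K] L) (x : 𝓞 L) : ((τ • x : 𝓞 L) : L) = τ (x : L) :=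
  algebraMap.coe_smul' τ x L

theorem galSmul_algebraMap_int (τ : L ≃ₐ[K] L) (x : 𝓞 K) :
    τ • (algebraMap (𝓞 K) (𝓞 L) x) = algebraMap (𝓞 K) (𝓞 L) x := by
  apply NumberField.RingOfIntegers.ext
  rw [coe_galSmul_int]
  have : ((algebraMap (𝓞 K) (𝓞 L) x : 𝓞 L) : L) = algebraMap K L (x : K) :=
    (IsScalarTower.algebraMap_apply K K L ↑x).symm
  rw [this]
  exact τ.commutes _

theorem galSmul_ideal_eq_bot (τ : L ≃ₐ[K] L) (I : Ideal (𝓞 L)) (h : τ • I = ⊥) : I = ⊥ := by
  have h2 := congrArg (fun J => τ⁻¹ • J) h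
  simpa using h2

theorem galSmul_ideal_span (τ : L ≃ₐ[K] L) (a : 𝓞 L) :
    τ • Ideal.span {a} = Ideal.span {τ • a} := by
  rw [Ideal.pointwise_smul_def, Ideal.map_span, Set.image_singleton]
  rfl

/-- The action of `Gal(L/K)` on the finite places of `L`: `τ • w = τ(w)`. -/
noncomputable def galSmul (τ : L ≃ₐ[K] L) (w : HeightOneSpectrum (𝓞 L)) :
    HeightOneSpectrum (𝓞 L) where
  asIdeal := τ • w.asIdeal
  isPrime := by
    infer_instance
  ne_bot := by
    intro h
    exact w.ne_bot (galSmul_ideal_eq_bot K L τ _ h)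

@[simp] theorem galSmul_asIdeal (τ : L ≃ₐ[K] L) (w : HeightOneSpectrum (𝓞 L)) :
    (galSmul K L τ w).asIdeal = τ • w.asIdeal := rfl

theorem galSmul_one (w : HeightOneSpectrum (𝓞 L)) : galSmul K L 1 w = w := by
  ext1
  simp

theorem galSmul_mul (τ τ' : L ≃ₐ[K] L) (w : HeightOneSpectrum (𝓞 L)) :
    galSmul K L (τ * τ') w = galSmul K L τ (galSmul K L τ' w) := by
  ext1
  simp [mul_smul]

/-- `τ(w)` lies over the same prime of `K` as `w`. -/
theorem under_galSmul (τ : L ≃ₐ[K] L) (w : HeightOneSpectrum (𝓞 L)) :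
    (galSmul K L τ w).under (𝓞 K) = w.under (𝓞 K) := by
  ext x
  simp only [HeightOneSpectrum.under_asIdeal, galSmul_asIdeal, Ideal.mem_comap,
    Ideal.under_def]
  rw [Ideal.mem_pointwise_smul_iff_inv_smul_mem, galSmul_algebraMap_int]

/-- `τ(w)(τ x) = w(x)`, integral version. -/
theorem intValuation_galSmul (τ : L ≃ₐ[K] L) (w : HeightOneSpectrum (𝓞 L)) (a : 𝓞 L) :
    (galSmul K L τ w).intValuation (τ • a) = w.intValuation a := by
  rcases eq_or_ne a 0 with rfl | ha
  · simp
  have ha' : τ • a ≠ 0 := by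
    intro h
    apply ha
    have h2 := congrArg (fun b => τ⁻¹ • b) h
    simpa using h2
  rw [HeightOneSpectrum.intValuation_eq_exp_neg_multiplicity _ ha',
    HeightOneSpectrum.intValuation_eq_exp_neg_multiplicity _ ha]
  congr 3
  rw [galSmul_asIdeal, ← galSmul_ideal_span]
  exact multiplicity_map_eq (MulSemiringAction.toRingEquiv (L ≃ₐ[K] L) (Ideal (𝓞 L)) τ)

/-- `τ(w)(τ x) = w(x)`. -/
theorem valuation_galSmul (τ : L ≃ₐ[K] L) (w : HeightOneSpectrum (𝓞 L)) (x : L) :
    (galSmul K L τ w).valuation L (τ x) = w.valuation L x := by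
  obtain ⟨a, b, hb, rfl⟩ := IsFractionRing.div_surjective (A := 𝓞 L) x
  rw [map_div₀, map_div₀, map_div₀]
  have h1 : ∀ c : 𝓞 L, τ (algebraMap (𝓞 L) L c) = algebraMap (𝓞 L) L (τ • c) :=
    fun c => (coe_galSmul_int K L τ c).symm
  rw [h1, h1, HeightOneSpectrum.valuation_of_algebraMap, HeightOneSpectrum.valuation_of_algebraMap,
    HeightOneSpectrum.valuation_of_algebraMap, HeightOneSpectrum.valuation_of_algebraMap,
    intValuation_galSmul, intValuation_galSmul]

/-- Every finite place of `K` has a place of `L` above it. -/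
theorem exists_under_eq (v : HeightOneSpectrum (𝓞 K)) :
    ∃ w : HeightOneSpectrum (𝓞 L), w.under (𝓞 K) = v := by
  have : v.asIdeal.IsMaximal := v.isMaximal
  obtain ⟨Q, hQ, hQv⟩ := Ideal.exists_maximal_ideal_liesOver_of_isIntegral (S := 𝓞 L) v.asIdeal
  have hQ0 : Q ≠ ⊥ := by
    intro h
    apply v.ne_bot
    rw [hQv.over, h]
    exact Ideal.under_bot (𝓞 K) (𝓞 L)
  refine ⟨⟨Q, hQ.isPrime, hQ0⟩, ?_⟩
  ext1
  exact hQv.over.symm

/-- `Gal(L/K)` is transitive on the places above a given place of `K`. -/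
theorem exists_galSmul_eq [IsGalois K L] (w w' : HeightOneSpectrum (𝓞 L))
    (h : w.under (𝓞 K) = w'.under (𝓞 K)) : ∃ τ : L ≃ₐ[K] L, galSmul K L τ w = w' := by
  have : w.asIdeal.LiesOver (w.under (𝓞 K)).asIdeal := ⟨rfl⟩
  have : w'.asIdeal.LiesOver (w.under (𝓞 K)).asIdeal := ⟨by rw [h]; rfl⟩
  obtain ⟨τ, hτ⟩ := Ideal.exists_smul_eq_of_isGaloisGroup (w.under (𝓞 K)).asIdeal
    w.asIdeal w'.asIdeal (L ≃ₐ[K] L)
  exact ⟨τ, HeightOneSpectrum.ext hτ⟩

/-- The valuation of a norm: `w(N x) = ∏_τ τ(w)(x)`. -/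
theorem valuation_norm [IsGalois K L] (w : HeightOneSpectrum (𝓞 L)) (x : L) :
    w.valuation L (algebraMap K L (Algebra.norm K x)) =
      ∏ τ : L ≃ₐ[K] L, (galSmul K L τ w).valuation L x := by
  rw [Algebra.norm_eq_prod_automorphisms, map_prod]
  refine Fintype.prod_equiv (Equiv.inv (L ≃ₐ[K] L)) _ _ (fun τ => ?_)
  have := valuation_galSmul K L τ⁻¹ w (τ x)
  simp only [Equiv.inv_apply]
  rw [← this]
  congr 1
  exact (τ.symm_apply_apply x)

/-- A place `w` of `L` that is unramified of residue degree one over `K` is moved by every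
nontrivial element of the Galois group (its decomposition group has order `e * f = 1`). -/
theorem galSmul_ne_of_inertiaDeg_eq_one [IsGalois K L] (w : HeightOneSpectrum (𝓞 L))
    (hun : ∀ x : K, w.valuation L (algebraMap K L x) = (w.under (𝓞 K)).valuation K x)
    (hf : w.asIdeal.inertiaDeg (𝓞 K) = 1)
    (τ : L ≃ₐ[K] L) (hτ : τ ≠ 1) : galSmul K L τ w ≠ w := by
  intro h
  set v := w.under (𝓞 K) with hv
  have : w.asIdeal.LiesOver v.asIdeal := ⟨rfl⟩
  -- ramification index one, from the valuation hypothesis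
  obtain ⟨π, hπ⟩ := v.valuation_exists_uniformizer K
  have he' : v.asIdeal.ramificationIdx' w.asIdeal = 1 := by
    have h1 := HeightOneSpectrum.valuation_liesOver L v w π
    rw [hun π, hπ] at h1
    rw [← WithZero.exp_nsmul, WithZero.exp_inj] at h1
    have h2 : -(v.asIdeal.ramificationIdx' w.asIdeal : ℤ) = -1 := by simpa using h1
    omega
  have he : w.asIdeal.ramificationIdx (𝓞 K) = 1 := by
    rw [← Ideal.ramificationIdx'_eq_ramificationIdx v.asIdeal w.asIdeal v.ne_bot, he']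
  -- the decomposition group has order `e * f = 1`
  have hcard := Ideal.card_stabilizer_eq (G := L ≃ₐ[K] L) v.asIdeal w.asIdeal
  rw [Ideal.ramificationIdxIn_eq_ramificationIdx v.asIdeal w.asIdeal (L ≃ₐ[K] L),
    Ideal.inertiaDegIn_eq_inertiaDeg v.asIdeal w.asIdeal (L ≃ₐ[K] L), he, hf, mul_one] at hcard
  have hmem : τ ∈ MulAction.stabilizer (L ≃ₐ[K] L) w.asIdeal := by
    rw [MulAction.mem_stabilizer_iff]
    exact congrArg HeightOneSpectrum.asIdeal h
  have := (Nat.card_eq_one_iff_unique.mp hcard).1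
  have h1 : (⟨τ, hmem⟩ : MulAction.stabilizer (L ≃ₐ[K] L) w.asIdeal) = 1 := Subsingleton.elim _ _
  exact hτ (congrArg Subtype.val h1)

/-- Norms of `T`-units of `L` are `T`-units of `K`, if the primes outside `T` are unramified. -/
theorem normUnits_le_unit [IsGalois K L] (T : Set (HeightOneSpectrum (𝓞 K)))
    (hR : ValCompatOutside K L T) : normUnits K L T ≤ T.unit K := by
  rintro _ ⟨y, hy, rfl⟩
  intro v hv
  obtain ⟨w, rfl⟩ := exists_under_eq K L v
  have h1 := hR w hv (Algebra.norm K (y : L))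
  have h2 : ∀ τ : L ≃ₐ[K] L, (galSmul K L τ w).valuation L (y : L) = 1 := by
    intro τ
    refine hy (galSmul K L τ w) ?_
    show (galSmul K L τ w).under (𝓞 K) ∉ T
    rw [under_galSmul]
    exact hv
  rw [valuation_norm K L w (y : L), Finset.prod_congr rfl (fun τ _ => h2 τ),
    Finset.prod_const_one] at h1
  simpa [normHom] using h1.symm

end Fermat.Agent.CFT.Global.HasseNorm
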