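import Fermat.Agent.CFT.Global.HasseNorm.Split
import Fermat.Agent.CFT.Global.HasseNorm.AdapterHerbrand
import Fermat.Agent.CFT.Global.LocalFirstIneq
import Fermat.Agent.CFT.Analytic.NormIndexFun

/-!
# Hasse norm theorem for cyclic extensions of odd prime degree, hypothesis-free

`hasse_norm` (file `Main`) has three hypotheses.  All of them are theorems on `origin/main`:

* `NormIndexIneq K L` is `Fermat.Agent.CFT.Analytic.NormIndex.normIndexIneq K L`;
* `LocalFirstIneqRam K L` follows from
  `Fermat.Agent.CFT.Global.LocalFirstIneq.exists_ne_zero_not_approxNorm`;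
* `UnitHerbrand K L p σ` is `unitHerbrand_of_odd` (file `AdapterHerbrand`), for `p` odd.

This file plugs them in: `hasse_norm_odd_prime` and `hasse_norm_odd_prime_of_nonsplit` have no
hypothesis left.
-/

set_option autoImplicit false

open scoped NumberField WithZero
open IsDedekindDomain

namespace Fermat.Agent.CFT.Global.HasseNorm

universe u v

variable (K : Type u) (L : Type v) [Field K] [NumberField K] [Field L] [NumberField L]
  [Algebra K L]

/-- The universal norm-index inequality holds for every extension of number fields. -/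
theorem normIndexIneq_holds : NormIndexIneq K L :=
  Fermat.Agent.CFT.Analytic.NormIndex.normIndexIneq K L

/-- The local first inequality holds for every cyclic extension of degree `> 1`. -/
theorem localFirstIneqRam_holds [IsGalois K L] [IsCyclic (L ≃ₐ[K] L)]
    (hKL : 1 < Module.finrank K L) : LocalFirstIneqRam K L :=
  LocalFirstIneqRam.of_nonsplit fun v hv =>
    Fermat.Agent.CFT.Global.LocalFirstIneq.exists_ne_zero_not_approxNorm hKL v hv

/-- **Hasse norm theorem** for a cyclic extension of prime degree `p`, with the Herbrand quotient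
of the `T`-units as the only remaining hypothesis: an element of `Kˣ` which is an approximate local
norm at every finite place is a global norm. -/
theorem hasse_norm_of_unitHerbrand [IsGalois K L] {p : ℕ} (hp : p.Prime)
    (hdeg : Module.finrank K L = p) (σ : L ≃ₐ[K] L) (hσ : ∀ τ, τ ∈ Subgroup.zpowers σ)
    (hHerb : UnitHerbrand K L p σ) (b : K) (hb : b ≠ 0)
    (h : ∀ v : HeightOneSpectrum (𝓞 K), ApproxNorm K L v b) :
    ∃ y : L, Algebra.norm K y = b := by
  haveI : IsCyclic (L ≃ₐ[K] L) := ⟨σ, hσ⟩
  exact hasse_norm K L hp hdeg σ hσ (normIndexIneq_holds K L) hHerb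
    (localFirstIneqRam_holds K L (hdeg ▸ hp.one_lt)) b hb h

/-- **Hasse norm theorem**, nonsplit places only (at the places with several primes above them
every element is an approximate norm). -/
theorem hasse_norm_of_unitHerbrand_of_nonsplit [IsGalois K L] {p : ℕ} (hp : p.Prime)
    (hdeg : Module.finrank K L = p) (σ : L ≃ₐ[K] L) (hσ : ∀ τ, τ ∈ Subgroup.zpowers σ)
    (hHerb : UnitHerbrand K L p σ) (b : K) (hb : b ≠ 0)
    (h : ∀ v : HeightOneSpectrum (𝓞 K), Nonsplit K L v → ApproxNorm K L v b) :
    ∃ y : L, Algebra.norm K y = b := by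
  haveI : IsCyclic (L ≃ₐ[K] L) := ⟨σ, hσ⟩
  exact hasse_norm_of_nonsplit K L hp hdeg σ hσ (normIndexIneq_holds K L) hHerb
    (localFirstIneqRam_holds K L (hdeg ▸ hp.one_lt)) b hb h

/-- A Galois extension of prime degree is cyclic: its Galois group has a generator. -/
theorem exists_generator_of_prime_finrank [IsGalois K L] {p : ℕ} (hp : p.Prime)
    (hdeg : Module.finrank K L = p) : ∃ σ : L ≃ₐ[K] L, ∀ τ, τ ∈ Subgroup.zpowers σ := by
  haveI : Fact p.Prime := ⟨hp⟩
  have hcard : Nat.card (L ≃ₐ[K] L) = p := by
    rw [IsGalois.card_aut_eq_finrank, hdeg]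
  haveI : IsCyclic (L ≃ₐ[K] L) := isCyclic_of_prime_card hcard
  exact IsCyclic.exists_generator

/-- **Hasse norm theorem** for a Galois (hence cyclic) extension `L/K` of number fields of odd
prime degree `p`: an element `b ∈ Kˣ` which is an approximate local norm at every finite place of
`K` is a norm from `L`.  No hypothesis left. -/
theorem hasse_norm_odd_prime [IsGalois K L] {p : ℕ} (hp : p.Prime) (hodd : Odd p)
    (hdeg : Module.finrank K L = p) (b : K) (hb : b ≠ 0)
    (h : ∀ v : HeightOneSpectrum (𝓞 K), ApproxNorm K L v b) :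
    ∃ y : L, Algebra.norm K y = b := by
  obtain ⟨σ, hσ⟩ := exists_generator_of_prime_finrank K L hp hdeg
  exact hasse_norm_of_unitHerbrand K L hp hdeg σ hσ
    (unitHerbrand_of_odd K L hp hodd hdeg σ hσ) b hb h

/-- **Hasse norm theorem**, odd prime degree, nonsplit places only: it suffices that `b` is an
approximate local norm at the finite places of `K` with a single prime of `L` above them. -/
theorem hasse_norm_odd_prime_of_nonsplit [IsGalois K L] {p : ℕ} (hp : p.Prime) (hodd : Odd p)
    (hdeg : Module.finrank K L = p) (b : K) (hb : b ≠ 0)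
    (h : ∀ v : HeightOneSpectrum (𝓞 K), Nonsplit K L v → ApproxNorm K L v b) :
    ∃ y : L, Algebra.norm K y = b := by
  obtain ⟨σ, hσ⟩ := exists_generator_of_prime_finrank K L hp hdeg
  exact hasse_norm_of_unitHerbrand_of_nonsplit K L hp hdeg σ hσ
    (unitHerbrand_of_odd K L hp hodd hdeg σ hσ) b hb h

end Fermat.Agent.CFT.Global.HasseNorm
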