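import Fermat.Agent.CFT.Global.HasseNorm.Final

/-!
# Hasse norm theorem: convenience forms (helper87)

The hypothesis-free theorems are `hasse_norm_odd_prime` and `hasse_norm_odd_prime_of_nonsplit`
(`Final.lean`; the three inputs are `normIndexIneq_holds`, `localFirstIneqRam_holds` and
`unitHerbrand_of_odd` from `AdapterHerbrand.lean`).  This file only keeps the names announced
earlier:

* `exists_generator_of_prime`: a Galois group of prime order is cyclic;
* `hasse_norm_of_loc`: the Hasse norm theorem with `LocalFirstIneqRam K L` as a hypothesis;
* `hasse_norm'`: the Hasse norm theorem for a Galois extension of prime degree `p ≠ 2`, local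
  conditions only at the nonsplit places.
-/

set_option autoImplicit false

open scoped NumberField WithZero
open IsDedekindDomain

namespace Fermat.Agent.CFT.Global.HasseNorm

universe u v

variable (K : Type u) (L : Type v) [Field K] [NumberField K] [Field L] [NumberField L]
  [Algebra K L]

/-- The Galois group of a Galois extension of prime degree is cyclic. -/
theorem exists_generator_of_prime [IsGalois K L] {p : ℕ} (hp : p.Prime)
    (hdeg : Module.finrank K L = p) :
    ∃ σ : L ≃ₐ[K] L, ∀ τ : L ≃ₐ[K] L, τ ∈ Subgroup.zpowers σ :=
  exists_generator_of_prime_finrank K L hp hdeg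

/-- **Hasse norm theorem** for a Galois extension of odd prime degree, with the local first
inequality at the ramified places as an explicit hypothesis: an element of `Kˣ` which is a local
norm at every nonsplit finite place is a norm. -/
theorem hasse_norm_of_loc [IsGalois K L] {p : ℕ} (hp : p.Prime) (hp2 : p ≠ 2)
    (hdeg : Module.finrank K L = p) (hloc : LocalFirstIneqRam K L) (b : K) (hb : b ≠ 0)
    (h : ∀ v : HeightOneSpectrum (𝓞 K), Nonsplit K L v → ApproxNorm K L v b) :
    ∃ y : L, Algebra.norm K y = b := by
  obtain ⟨σ, hσ⟩ := exists_generator_of_prime K L hp hdeg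
  exact hasse_norm_of_nonsplit K L hp hdeg σ hσ (normIndexIneq_holds K L)
    (unitHerbrand_of_odd K L hp (hp.odd_of_ne_two hp2) hdeg σ hσ) hloc b hb h

/-- **Hasse norm theorem** for a Galois extension `L/K` of number fields of prime degree
`p ≠ 2`: an element `b ∈ Kˣ` which is an approximate local norm at every finite place of `K`
with a single prime of `L` above it is a norm from `L`. -/
theorem hasse_norm' [IsGalois K L] {p : ℕ} (hp : p.Prime) (hp2 : p ≠ 2)
    (hdeg : Module.finrank K L = p) (b : K) (hb : b ≠ 0)
    (h : ∀ v : HeightOneSpectrum (𝓞 K), Nonsplit K L v → ApproxNorm K L v b) :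
    ∃ y : L, Algebra.norm K y = b :=
  hasse_norm_odd_prime_of_nonsplit K L hp (hp.odd_of_ne_two hp2) hdeg b hb h

end Fermat.Agent.CFT.Global.HasseNorm
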