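import Mathlib

/-!
# Hasse norm theorem for cyclic extensions of odd prime degree: definitions

`K ⊆ L` number fields.  Everything is phrased with the finite places
`HeightOneSpectrum (𝓞 K)` and their valuations; no completions, no ideles.

* `ApproxNorm K L v b` : `b` is a local norm at `v` (approximation form).
* `approxNormSubgroup K L v`, `approxNormOn K L T` : the corresponding subgroups of `Kˣ`.
* `above K L T` : the primes of `L` above the primes in `T`.
* `normUnits K L T` : norms of `T`-units of `L`.
* `PrincipalOutside K T` : every prime outside `T` is principal up to `T` (i.e. `Cl_T(K) = 0`).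
* `ValCompatOutside K L T` : the primes of `L` outside `T` are unramified over `K`
  (valuation form).
* `Nonsplit K L v` : there is exactly one prime of `L` above `v`.
-/

set_option autoImplicit false

open scoped NumberField WithZero
open IsDedekindDomain

namespace Fermat.Agent.CFT.Global.HasseNorm

variable (K L : Type*) [Field K] [NumberField K] [Field L] [NumberField L] [Algebra K L]

/-- `b` is an approximate norm from `L` at the finite place `v` of `K`:
for every `n` there is `y ∈ Lˣ` with `b / N(y) ≡ 1 mod v ^ n`. -/
def ApproxNorm (v : HeightOneSpectrum (𝓞 K)) (b : K) : Prop :=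
  ∀ n : ℕ, ∃ y : L, y ≠ 0 ∧ v.valuation K (b / Algebra.norm K y - 1) ≤ WithZero.exp (-(n : ℤ))

/-- The primes of `L` lying above the primes in `T`. -/
def above (T : Set (HeightOneSpectrum (𝓞 K))) : Set (HeightOneSpectrum (𝓞 L)) :=
  {w | w.under (𝓞 K) ∈ T}

/-- The norm `Lˣ →* Kˣ`. -/
noncomputable def normHom : Lˣ →* Kˣ := Units.map (Algebra.norm K : L →* K)

/-- Norms of the `T`-units of `L`, as a subgroup of `Kˣ`. -/
noncomputable def normUnits (T : Set (HeightOneSpectrum (𝓞 K))) : Subgroup Kˣ :=
  ((above K L T).unit L).map (normHom K L)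

/-- Every prime outside `T` has a generator up to `T`: `Cl_T(K) = 0`. -/
def PrincipalOutside (T : Set (HeightOneSpectrum (𝓞 K))) : Prop :=
  ∀ v, v ∉ T → ∃ π : K, v.valuation K π = WithZero.exp (-1 : ℤ) ∧
    ∀ v', v' ∉ T → v' ≠ v → v'.valuation K π = 1

/-- The primes of `L` not above `T` are unramified over `K` (valuation form). -/
def ValCompatOutside (T : Set (HeightOneSpectrum (𝓞 K))) : Prop :=
  ∀ w : HeightOneSpectrum (𝓞 L), w.under (𝓞 K) ∉ T →
    ∀ x : K, w.valuation L (algebraMap K L x) = (w.under (𝓞 K)).valuation K x

/-- There is only one prime of `L` above `v`. -/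
def Nonsplit (v : HeightOneSpectrum (𝓞 K)) : Prop :=
  ∀ w w' : HeightOneSpectrum (𝓞 L), w.under (𝓞 K) = v → w'.under (𝓞 K) = v → w = w'

end Fermat.Agent.CFT.Global.HasseNorm
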