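import Fermat.Agent.CFT.Global.HasseNorm.Defs
import Fermat.Agent.Lib.WeakApprox

/-!
# Weak approximation at finitely many finite places (brick B3)
-/

set_option autoImplicit false

open scoped NumberField WithZero
open IsDedekindDomain

namespace Fermat.Agent.CFT.Global.HasseNorm

variable (K : Type*) [Field K] [NumberField K]

/-- Weak approximation (multiplicative form): given nonzero targets `x v` at finitely many finite
places, there is `a ∈ Kˣ` with `a / x v ≡ 1 mod v ^ n` for all `v ∈ T`. -/
theorem exists_approx (T : Finset (HeightOneSpectrum (𝓞 K)))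
    (x : HeightOneSpectrum (𝓞 K) → K) (hx : ∀ v ∈ T, x v ≠ 0) (n : ℕ) :
    ∃ a : K, a ≠ 0 ∧ ∀ v ∈ T, v.valuation K (a / x v - 1) ≤ WithZero.exp (-(n : ℤ)) := by
  obtain ⟨y, hy0, hy⟩ :=
    Fermat.Agent.Lib.WeakApprox.exists_forall_valuation_div_sub_one_le T x hx (fun _ => n)
  exact ⟨y, hy0, fun v hv => (hy v hv).1⟩

end Fermat.Agent.CFT.Global.HasseNorm
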