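import Fermat.Agent.CFT.Global.HasseNorm.Newton
import Fermat.Agent.CFT.Global.HasseNorm.WeakApprox

/-!
# Lower bound for the index of the simultaneous approximate norms (brick B10)
-/

set_option autoImplicit false

open scoped NumberField WithZero
open IsDedekindDomain

namespace Fermat.Agent.CFT.Global.HasseNorm

/-- Index of a finite intersection of pairwise "independent" subgroups of a commutative group. -/
theorem index_iInf_finset_of_sup_eq_top {G ι : Type*} [CommGroup G] [DecidableEq ι]
    (A : ι → Subgroup G)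
    (hWA : ∀ (S' : Finset ι) (v : ι), v ∉ S' → A v ⊔ ⨅ w ∈ S', A w = ⊤) (S : Finset ι) :
    (⨅ v ∈ S, A v).index = ∏ v ∈ S, (A v).index := by
  induction S using Finset.induction_on with
  | empty => simp
  | insert v S' hv ih =>
    rw [Finset.iInf_insert, Finset.prod_insert hv, ← ih]
    have h1 : (A v ⊓ ⨅ w ∈ S', A w).index =
        (A v ⊓ ⨅ w ∈ S', A w).relIndex (⨅ w ∈ S', A w) * (⨅ w ∈ S', A w).index :=
      (Subgroup.relIndex_mul_index inf_le_right).symm
    rw [h1, Subgroup.inf_relIndex_right]
    congr 1
    have h2 := Subgroup.relIndex_sup_left (⨅ w ∈ S', A w) (A v)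
    rw [hWA S' v hv, Subgroup.relIndex_top_right] at h2
    exact h2.symm

variable (K L : Type*) [Field K] [NumberField K] [Field L] [NumberField L] [Algebra K L]

/-- A common precision beyond which `1 + v ^ n` consists of approximate `p`-th powers. -/
theorem exists_exp_lt_valuation_sq (p : ℕ) (hp : p ≠ 0) (T : Finset (HeightOneSpectrum (𝓞 K))) :
    ∃ n : ℕ, ∀ v ∈ T, WithZero.exp (-(n : ℤ)) < v.valuation K (p : K) ^ 2 := by
  classical
  have hpK : (p : K) ≠ 0 := Nat.cast_ne_zero.2 hp
  have key : ∀ v : HeightOneSpectrum (𝓞 K), ∃ n : ℕ, ∀ m : ℕ, n ≤ m →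
      WithZero.exp (-(m : ℤ)) < v.valuation K (p : K) ^ 2 := by
    intro v
    have hne : v.valuation K (p : K) ^ 2 ≠ 0 := pow_ne_zero _ ((Valuation.ne_zero_iff _).2 hpK)
    refine ⟨(-(WithZero.log (v.valuation K (p : K) ^ 2))).toNat + 1, fun m hm => ?_⟩
    rw [← WithZero.exp_log hne, WithZero.exp_lt_exp]
    have := Int.self_le_toNat (-(WithZero.log (v.valuation K (p : K) ^ 2)))
    omega
  choose f hf using key
  exact ⟨T.sup f, fun v hv => hf v _ (Finset.le_sup hv)⟩

/-- Weak approximation in subgroup form: the approximate norm subgroups at distinct places of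
an extension of prime degree are independent. -/
theorem approxNormSubgroup_sup_iInf_eq_top {p : ℕ} (hp : p.Prime) (hdeg : Module.finrank K L = p)
    (S' : Finset (HeightOneSpectrum (𝓞 K))) (v : HeightOneSpectrum (𝓞 K)) (hv : v ∉ S') :
    approxNormSubgroup K L v ⊔ ⨅ w ∈ S', approxNormSubgroup K L w = ⊤ := by
  classical
  rw [eq_top_iff]
  intro x _
  obtain ⟨n, hn⟩ := exists_exp_lt_valuation_sq K p hp.ne_zero (insert v S')
  obtain ⟨a, ha0, ha⟩ := exists_approx K (insert v S') (fun w => if w = v then (x : K) else 1)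
    (fun w _ => by split_ifs <;> simp) n
  have hav : ApproxNorm K L v (a / (x : K)) := by
    apply approxNorm_of_close_one L v p hp hdeg
    have := ha v (Finset.mem_insert_self v S')
    simp only [if_true] at this
    exact lt_of_le_of_lt this (hn v (Finset.mem_insert_self v S'))
  have haw : ∀ w ∈ S', ApproxNorm K L w a := by
    intro w hw
    have hwv : w ≠ v := fun h => hv (h ▸ hw)
    apply approxNorm_of_close_one L w p hp hdeg
    have := ha w (Finset.mem_insert_of_mem hw)
    simp only [if_neg hwv, div_one] at this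
    exact lt_of_le_of_lt this (hn w (Finset.mem_insert_of_mem hw))
  let au : Kˣ := Units.mk0 a ha0
  have h1 : x * au⁻¹ ∈ approxNormSubgroup K L v := by
    have : (x * au⁻¹)⁻¹ ∈ approxNormSubgroup K L v := by
      rw [mem_approxNormSubgroup]
      have e : (((x * au⁻¹)⁻¹ : Kˣ) : K) = a / (x : K) := by
        simp [au, div_eq_mul_inv, mul_comm]
      rw [e]; exact hav
    simpa using Subgroup.inv_mem _ this
  have h2 : au ∈ ⨅ w ∈ S', approxNormSubgroup K L w := by
    simp only [Subgroup.mem_iInf, mem_approxNormSubgroup]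
    intro w hw
    exact haw w hw
  have : x = x * au⁻¹ * au := by simp
  rw [this]
  exact Subgroup.mul_mem_sup h1 h2

/-- If at each `v ∈ S ⊆ T` some element is not an approximate norm, then the simultaneous
approximate norms at `T` have index at least `p ^ |S|` in `Kˣ` (weak approximation + the local
quotients are nontrivial groups of exponent `p`). -/
theorem pow_card_le_index_approxNormOn {p : ℕ} (hp : p.Prime) (hdeg : Module.finrank K L = p)
    (T S : Finset (HeightOneSpectrum (𝓞 K))) (hST : S ⊆ T)
    (hS : ∀ v ∈ S, ∃ b : K, b ≠ 0 ∧ ¬ ApproxNorm K L v b)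
    (hfin : (approxNormOn K L (T : Set (HeightOneSpectrum (𝓞 K)))).index ≠ 0) :
    p ^ S.card ≤ (approxNormOn K L (T : Set (HeightOneSpectrum (𝓞 K)))).index := by
  classical
  -- the intersection over `S` contains the intersection over `T`
  have hle : approxNormOn K L (T : Set (HeightOneSpectrum (𝓞 K))) ≤
      ⨅ v ∈ S, approxNormSubgroup K L v := by
    intro x hx
    rw [mem_approxNormOn] at hx
    simp only [Subgroup.mem_iInf, mem_approxNormSubgroup]
    exact fun v hv => hx v (Finset.mem_coe.2 (hST hv))
  have hdvd := Subgroup.index_dvd_of_le hle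
  have hS0 : (⨅ v ∈ S, approxNormSubgroup K L v).index ≠ 0 := by
    intro h0
    rw [h0, zero_dvd_iff] at hdvd
    exact hfin hdvd
  have hprod := index_iInf_finset_of_sup_eq_top (approxNormSubgroup K L)
    (fun S' v hv => approxNormSubgroup_sup_iInf_eq_top K L hp hdeg S' v hv) S
  -- each local index is at least `p`
  have hloc : ∀ v ∈ S, p ≤ (approxNormSubgroup K L v).index := by
    intro v hv
    have hv0 : (approxNormSubgroup K L v).index ≠ 0 := by
      intro h0
      apply hS0
      rw [hprod]
      exact Finset.prod_eq_zero hv h0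
    obtain ⟨b, hb0, hb⟩ := hS v hv
    let bu : Kˣ := Units.mk0 b hb0
    let q : Kˣ ⧸ approxNormSubgroup K L v := QuotientGroup.mk bu
    have hq1 : q ≠ 1 := by
      intro h
      rw [QuotientGroup.eq_one_iff] at h
      exact hb h
    have hqp : q ^ p = 1 := by
      have : q ^ p = QuotientGroup.mk (bu ^ p) := rfl
      rw [this, QuotientGroup.eq_one_iff, mem_approxNormSubgroup]
      have := approxNorm_pow_finrank K L v b hb0
      rw [hdeg] at this
      simpa [bu] using this
    have : Fact p.Prime := ⟨hp⟩
    have hord : orderOf q = p := orderOf_eq_prime hqp hq1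
    have hdiv : p ∣ (approxNormSubgroup K L v).index := by
      rw [← hord, Subgroup.index]
      exact orderOf_dvd_natCard q
    exact Nat.le_of_dvd (Nat.pos_of_ne_zero hv0) hdiv
  calc p ^ S.card = ∏ _v ∈ S, p := by simp
    _ ≤ ∏ v ∈ S, (approxNormSubgroup K L v).index :=
        Finset.prod_le_prod' hloc
    _ = (⨅ v ∈ S, approxNormSubgroup K L v).index := hprod.symm
    _ ≤ (approxNormOn K L (T : Set (HeightOneSpectrum (𝓞 K)))).index :=
        Nat.le_of_dvd (Nat.pos_of_ne_zero hfin) hdvd

end Fermat.Agent.CFT.Global.HasseNorm
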