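import Fermat.Agent.CFT.Global.HasseNorm.Defs

/-!
# Only finitely many primes ramify (brick B5)
-/

set_option autoImplicit false

open scoped NumberField WithZero
open IsDedekindDomain

namespace Fermat.Agent.CFT.Global.HasseNorm

variable (K L : Type*) [Field K] [NumberField K] [Field L] [NumberField L] [Algebra K L]

/-- There is a finite set `T₀` of primes of `K` such that for `T ⊇ T₀` the primes of `L` not above
`T` are unramified over `K`, in the form: `w (x) = v (x)` for `x ∈ K`, `v = w ∩ K`. -/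
theorem exists_finset_valCompatOutside :
    ∃ T₀ : Finset (HeightOneSpectrum (𝓞 K)), ∀ T : Set (HeightOneSpectrum (𝓞 K)),
      ↑T₀ ⊆ T → ValCompatOutside K L T := by
  classical
  have hne : differentIdeal (𝓞 K) (𝓞 L) ≠ ⊥ := differentIdeal_ne_bot
  have hfin : {w : HeightOneSpectrum (𝓞 L) | w.asIdeal ∣ differentIdeal (𝓞 K) (𝓞 L)}.Finite :=
    Ideal.finite_factors hne
  refine ⟨hfin.toFinset.image (fun w => w.under (𝓞 K)), fun T hT w hw x => ?_⟩
  have hnd : ¬ w.asIdeal ∣ differentIdeal (𝓞 K) (𝓞 L) := by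
    intro hd
    exact hw (hT (Finset.mem_coe.2 (Finset.mem_image.2 ⟨w, hfin.mem_toFinset.2 hd, rfl⟩)))
  have hunr : Algebra.IsUnramifiedAt (𝓞 K) w.asIdeal := not_dvd_differentIdeal_iff.1 hnd
  have : w.asIdeal.LiesOver (w.under (𝓞 K)).asIdeal := ⟨rfl⟩
  have he : (w.under (𝓞 K)).asIdeal.ramificationIdx' w.asIdeal = 1 := by
    rw [Ideal.ramificationIdx'_eq_ramificationIdx _ _ (w.under (𝓞 K)).ne_bot]
    exact Ideal.ramificationIdx_eq_one_of_isUnramifiedAt
  rw [← HeightOneSpectrum.valuation_liesOver L (w.under (𝓞 K)) w x, he, pow_one]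

end Fermat.Agent.CFT.Global.HasseNorm
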