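import Fermat.Agent.CFT.Global.HasseNorm.RayMap
import Fermat.Agent.CFT.Global.HasseNorm.LocalProduct
import Fermat.Agent.CFT.Global.HasseNorm.Ramified

/-!
# Hasse norm theorem for cyclic extensions of (odd) prime degree

`L/K` Galois, cyclic of prime degree `p`.  If `b ∈ Kˣ` is a local norm at every finite place
(approximation form, `ApproxNorm`), then `b` is a norm from `L`.

The three external inputs are explicit hypotheses (see `Hyp.lean`):
`NormIndexIneq K L` (analytic second inequality), `UnitHerbrand K L p σ` (Herbrand quotient of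
`T`-units; true for `p` odd), `LocalFirstIneqRam K L` (local first inequality at ramified places).

Proof: choose a finite `T` containing the ramified primes and the support of `b` with
`Cl_T(K) = Cl_T(L) = 0`.  With `U = U_T`, `N = N(U_{L,T})`, `AN = AN_T`:
`[U : N] = p ^ (t-1)` (Herbrand + `H¹ = 0`), `[Kˣ : U·AN] ≤ p` (second inequality),
`[Kˣ : AN] ≥ p ^ t` (local first inequality + weak approximation); hence `U ∩ AN = N`.
-/

set_option autoImplicit false

open scoped NumberField WithZero
open IsDedekindDomain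

namespace Fermat.Agent.CFT.Global.HasseNorm

universe u v

variable (K : Type u) (L : Type v) [Field K] [NumberField K] [Field L] [NumberField L]
  [Algebra K L]

/-- Membership in the `T`-units, unfolded. -/
theorem mem_unit_iff' {F : Type*} [Field F] [NumberField F] (T : Set (HeightOneSpectrum (𝓞 F)))
    (x : Fˣ) : x ∈ T.unit F ↔ ∀ v, v ∉ T → v.valuation F (x : F) = 1 := Iff.rfl

/-- Norms of `T`-units of `L` are approximate norms at every place. -/
theorem normUnits_le_approxNormOn (T T' : Set (HeightOneSpectrum (𝓞 K))) :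
    normUnits K L T ≤ approxNormOn K L T' := by
  rintro _ ⟨u, -, rfl⟩
  rw [mem_approxNormOn]
  intro v _
  exact approxNorm_norm K L v (u : L) u.ne_zero

/-- The counting core: for a good finite set `T`, a `T`-unit which is an approximate norm at every
`v ∈ T` is the norm of a `T`-unit of `L`. -/
theorem unit_inf_approxNormOn_le_normUnits [IsGalois K L] {p : ℕ} (hp : p.Prime)
    (hdeg : Module.finrank K L = p) (σ : L ≃ₐ[K] L)
    (hσ : ∀ τ : L ≃ₐ[K] L, τ ∈ Subgroup.zpowers σ)
    (hA3 : NormIndexIneq K L) (hHerb : UnitHerbrand K L p σ) (hloc : LocalFirstIneqRam K L)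
    (T : Finset (HeightOneSpectrum (𝓞 K)))
    (hTK : PrincipalOutside K (T : Set (HeightOneSpectrum (𝓞 K))))
    (hTL : PrincipalOutside L (above K L (T : Set (HeightOneSpectrum (𝓞 K)))))
    (hR : ValCompatOutside K L (T : Set (HeightOneSpectrum (𝓞 K)))) :
    (T : Set (HeightOneSpectrum (𝓞 K))).unit K ⊓
        approxNormOn K L (T : Set (HeightOneSpectrum (𝓞 K))) ≤
      normUnits K L (T : Set (HeightOneSpectrum (𝓞 K))) := by
  classical
  set U : Subgroup Kˣ := (T : Set (HeightOneSpectrum (𝓞 K))).unit K with hU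
  set AN : Subgroup Kˣ := approxNormOn K L (T : Set (HeightOneSpectrum (𝓞 K))) with hAN
  set N : Subgroup Kˣ := normUnits K L (T : Set (HeightOneSpectrum (𝓞 K))) with hN
  have hp0 : 0 < p := hp.pos
  -- Herbrand + H¹ = 0
  obtain ⟨h1, -, h3⟩ := hHerb T
  have hH1 : (((above K L (T : Set (HeightOneSpectrum (𝓞 K)))).unit L).map
      (subOneHom K L σ)).relIndex
        ((above K L (T : Set (HeightOneSpectrum (𝓞 K)))).unit L ⊓ (normHom K L).ker) = 1 :=
    Subgroup.relIndex_eq_one.mpr (unit_inf_ker_normHom_le K L σ hσ _ hTK hR)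
  rw [hH1, mul_one] at h3
  -- inclusions
  have hNU : N ≤ U := normUnits_le_unit K L _ hR
  have hNAN : N ≤ AN := normUnits_le_approxNormOn K L _ _
  have hNUA : N ≤ U ⊓ AN := le_inf hNU hNAN
  -- second inequality
  obtain ⟨hc0, hcp⟩ := index_unit_sup_approxNormOn_le K L hp hdeg hA3 T hTK hTL hR
  -- index bookkeeping
  have e1 : AN.relIndex (U ⊔ AN) * (U ⊔ AN).index = AN.index :=
    Subgroup.relIndex_mul_index le_sup_right
  have e2 : AN.relIndex (U ⊔ AN) = (U ⊓ AN).relIndex U := by
    rw [Subgroup.relIndex_sup_right, inf_comm, Subgroup.inf_relIndex_right]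
  have e3 : N.relIndex (U ⊓ AN) * (U ⊓ AN).relIndex U = N.relIndex U :=
    Subgroup.relIndex_mul_relIndex N (U ⊓ AN) U hNUA inf_le_left
  set a := N.relIndex U with ha
  set e := (U ⊓ AN).relIndex U with he
  set f := N.relIndex (U ⊓ AN) with hf
  have he0 : e ≠ 0 := fun h => h1 (by rw [← e3, h, mul_zero])
  have hf0 : f ≠ 0 := fun h => h1 (by rw [← e3, h, zero_mul])
  have hd0 : AN.index ≠ 0 := by
    rw [← e1, e2]
    exact mul_ne_zero he0 hc0
  -- local lower bound
  set S : Finset (HeightOneSpectrum (𝓞 K)) := T.filter (fun v => Nonsplit K L v) with hS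
  have hSc : {v : HeightOneSpectrum (𝓞 K) | v ∈ T ∧ Nonsplit K L v}.ncard = S.card := by
    rw [← Set.ncard_coe_finset S]
    congr 1
    ext v
    simp [hS]
  have hSloc : ∀ v ∈ S, ∃ b : K, b ≠ 0 ∧ ¬ ApproxNorm K L v b := by
    intro v hv
    have hvns : Nonsplit K L v := (Finset.mem_filter.mp hv).2
    by_cases hun : UnramAt K L v
    · exact exists_not_approxNorm_of_nonsplit_unram K L hp hdeg v hvns hun
    · exact hloc v hvns hun
  have hlow : p ^ S.card ≤ AN.index :=
    pow_card_le_index_approxNormOn K L hp hdeg T S (Finset.filter_subset _ _) hSloc hd0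
  rw [hSc] at h3
  -- conclude `f = 1`
  have hle : f * (e * p) ≤ 1 * (e * p) := by
    calc f * (e * p) = a * p := by rw [← mul_assoc, e3]
      _ = p ^ S.card := h3
      _ ≤ AN.index := hlow
      _ = e * (U ⊔ AN).index := by rw [← e1, e2]
      _ ≤ e * p := Nat.mul_le_mul_left e hcp
      _ = 1 * (e * p) := (one_mul _).symm
  have hf1 : f ≤ 1 := Nat.le_of_mul_le_mul_right hle (Nat.mul_pos (Nat.pos_of_ne_zero he0) hp0)
  have hf1' : f = 1 := le_antisymm hf1 (Nat.one_le_iff_ne_zero.mpr hf0)
  exact Subgroup.relIndex_eq_one.mp hf1'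

/-- **Hasse norm theorem** for a cyclic extension `L/K` of prime degree `p` (the hypothesis
`hHerb` holds for odd `p`): an element of `Kˣ` which is a local norm at every finite place is a
norm. -/
theorem hasse_norm [IsGalois K L] {p : ℕ} (hp : p.Prime)
    (hdeg : Module.finrank K L = p) (σ : L ≃ₐ[K] L)
    (hσ : ∀ τ : L ≃ₐ[K] L, τ ∈ Subgroup.zpowers σ)
    (hA3 : NormIndexIneq K L) (hHerb : UnitHerbrand K L p σ) (hloc : LocalFirstIneqRam K L)
    (b : K) (hb : b ≠ 0) (h : ∀ v : HeightOneSpectrum (𝓞 K), ApproxNorm K L v b) :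
    ∃ y : L, Algebra.norm K y = b := by
  classical
  obtain ⟨T₁, hT₁⟩ := exists_finset_principalOutside K
  obtain ⟨T₂, hT₂⟩ := exists_finset_principalOutside L
  obtain ⟨T₃, hT₃⟩ := exists_finset_valCompatOutside K L
  set T₄ : Finset (HeightOneSpectrum (𝓞 K)) := (finite_valuation_ne_one K b hb).toFinset with hT₄
  set T : Finset (HeightOneSpectrum (𝓞 K)) :=
    T₁ ∪ T₂.image (fun w => w.under (𝓞 K)) ∪ T₃ ∪ T₄ with hT
  have hTK : PrincipalOutside K (T : Set (HeightOneSpectrum (𝓞 K))) := by
    apply hT₁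
    intro v hv
    simp only [hT, Finset.coe_union, Set.mem_union, Finset.mem_coe] at hv ⊢
    exact Or.inl (Or.inl (Or.inl hv))
  have hTL : PrincipalOutside L (above K L (T : Set (HeightOneSpectrum (𝓞 K)))) := by
    apply hT₂
    intro w hw
    show w.under (𝓞 K) ∈ (T : Set (HeightOneSpectrum (𝓞 K)))
    simp only [hT, Finset.coe_union, Set.mem_union, Finset.mem_coe]
    exact Or.inl (Or.inl (Or.inr (Finset.mem_image_of_mem _ hw)))
  have hR : ValCompatOutside K L (T : Set (HeightOneSpectrum (𝓞 K))) := by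
    apply hT₃
    intro v hv
    simp only [hT, Finset.coe_union, Set.mem_union, Finset.mem_coe] at hv ⊢
    exact Or.inl (Or.inr hv)
  set bu : Kˣ := Units.mk0 b hb with hbu
  have hbU : bu ∈ (T : Set (HeightOneSpectrum (𝓞 K))).unit K := by
    rw [mem_unit_iff']
    intro v hv
    by_contra hne
    apply hv
    simp only [hT, Finset.coe_union, Set.mem_union, Finset.mem_coe]
    refine Or.inr ?_
    rw [hT₄, Set.Finite.mem_toFinset]
    exact hne
  have hbAN : bu ∈ approxNormOn K L (T : Set (HeightOneSpectrum (𝓞 K))) := by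
    rw [mem_approxNormOn]
    intro v _
    exact h v
  obtain ⟨u, -, hu⟩ := unit_inf_approxNormOn_le_normUnits K L hp hdeg σ hσ hA3 hHerb hloc T
    hTK hTL hR ⟨hbU, hbAN⟩
  refine ⟨(u : L), ?_⟩
  have := congrArg (fun x : Kˣ => (x : K)) hu
  simpa [normHom, hbu] using this

end Fermat.Agent.CFT.Global.HasseNorm
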