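import Fermat.Agent.CFT.Global.HasseNorm.Approx

/-!
# Elements close to `1` are approximate `p`-th powers, hence approximate norms (brick B2)

Newton iteration for `X ^ p - b` inside `K` (no completion): if `v (b - 1) < v p ^ 2` then for
every `n` there is `x ∈ Kˣ` with `b / x ^ p ≡ 1 mod v ^ n`.
-/

set_option autoImplicit false

open scoped NumberField WithZero
open IsDedekindDomain

namespace Fermat.Agent.CFT.Global.HasseNorm

/-- One Newton step for `X ^ p - b` with respect to an arbitrary valuation: if `v x = 1` and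
`v (x ^ p - b) ≤ v p ^ 2 * ε` with `ε < 1`, then `x' = x - (x ^ p - b) / (p x ^ (p - 1))`
satisfies `v x' = 1` and `v (x' ^ p - b) ≤ v p ^ 2 * ε ^ 2`. -/
theorem newton_step_pow {F : Type*} [Field F] {Γ₀ : Type*} [LinearOrderedCommGroupWithZero Γ₀]
    (v : Valuation F Γ₀) (p : ℕ) (hp0 : (p : F) ≠ 0) (hp1 : v (p : F) ≤ 1) (b x : F)
    (hx : v x = 1) (ε : Γ₀) (hε : ε < 1)
    (h : v (x ^ p - b) ≤ v (p : F) ^ 2 * ε) :
    ∃ x' : F, v x' = 1 ∧ v (x' ^ p - b) ≤ v (p : F) ^ 2 * ε ^ 2 := by
  set d : F := -(x ^ p - b) / ((p : F) * x ^ (p - 1)) with hd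
  have hx0 : x ≠ 0 := by
    intro h0
    rw [h0, map_zero] at hx
    exact zero_ne_one hx
  have hvp0 : v (p : F) ≠ 0 := (Valuation.ne_zero_iff v).2 hp0
  have hvd : v d = v (x ^ p - b) / v (p : F) := by
    rw [hd, map_div₀, Valuation.map_neg, map_mul, map_pow, hx, one_pow, mul_one]
  have hvd_le : v d ≤ v (p : F) * ε := by
    rw [hvd, div_le_iff₀ (zero_lt_iff.2 hvp0)]
    calc v (x ^ p - b) ≤ v (p : F) ^ 2 * ε := h
      _ = v (p : F) * ε * v (p : F) := by
        rw [sq]
        exact (mul_right_comm _ _ _)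
  have hvd_lt : v d < 1 := by
    calc v d ≤ v (p : F) * ε := hvd_le
      _ ≤ 1 * ε := by gcongr
      _ = ε := one_mul ε
      _ < 1 := hε
  have hxA : x ∈ v.valuationSubring := by
    rw [Valuation.mem_valuationSubring_iff]
    exact hx.le
  have hdA : d ∈ v.valuationSubring := by
    rw [Valuation.mem_valuationSubring_iff]
    exact hvd_lt.le
  obtain ⟨k, hk⟩ := Polynomial.powAddExpansion (⟨x, hxA⟩ : v.valuationSubring) ⟨d, hdA⟩ p
  have hk' : (x + d) ^ p = x ^ p + (p : F) * x ^ (p - 1) * d + (k : F) * d ^ 2 := by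
    have := congrArg (fun a : v.valuationSubring => (a : F)) hk
    simpa using this
  have hkv : v (k : F) ≤ 1 := (Valuation.mem_valuationSubring_iff v _).1 k.2
  refine ⟨x + d, ?_, ?_⟩
  · rw [Valuation.map_add_eq_of_lt_left v (by rw [hx]; exact hvd_lt), hx]
  · have hpx : (p : F) * x ^ (p - 1) ≠ 0 := mul_ne_zero hp0 (pow_ne_zero _ hx0)
    have key : (x + d) ^ p - b = (k : F) * d ^ 2 := by
      have h1 : (p : F) * x ^ (p - 1) * d = -(x ^ p - b) := by
        rw [hd]
        field_simp
      rw [hk', h1]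
      ring
    rw [key, map_mul, map_pow]
    calc v (k : F) * v d ^ 2 ≤ 1 * (v (p : F) * ε) ^ 2 :=
          mul_le_mul' hkv (pow_le_pow_left' hvd_le 2)
      _ = v (p : F) ^ 2 * ε ^ 2 := by rw [one_mul, mul_pow]

variable (K L : Type*) [Field K] [NumberField K] [Field L] [NumberField L] [Algebra K L]

variable {K} in
/-- Approximate `p`-th roots of elements close to `1` (Hensel/Newton without completeness). -/
theorem exists_pow_close (v : HeightOneSpectrum (𝓞 K)) (p : ℕ) (hp : p.Prime) (b : K)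
    (hb : v.valuation K (b - 1) < v.valuation K (p : K) ^ 2) (n : ℕ) :
    ∃ x : K, x ≠ 0 ∧ v.valuation K (b / x ^ p - 1) ≤ WithZero.exp (-(n : ℤ)) := by
  have hp0 : (p : K) ≠ 0 := Nat.cast_ne_zero.2 hp.ne_zero
  have hp1 : v.valuation K (p : K) ≤ 1 := by
    have := v.valuation_le_one (K := K) (p : 𝓞 K)
    simpa using this
  have hvp0 : v.valuation K (p : K) ≠ 0 := (Valuation.ne_zero_iff _).2 hp0
  have key : ∀ m : ℕ, ∃ x : K, v.valuation K x = 1 ∧
      v.valuation K (x ^ p - b) ≤
        v.valuation K (p : K) ^ 2 * WithZero.exp (-((m : ℤ) + 1)) := by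
    intro m
    induction m with
    | zero =>
      refine ⟨1, map_one _, ?_⟩
      have h1 : v.valuation K (1 ^ p - b) = v.valuation K (b - 1) := by
        rw [one_pow, ← Valuation.map_neg, neg_sub]
      rw [h1]
      have h2 : v.valuation K (p : K) ^ 2 * WithZero.exp (-((0 : ℕ) : ℤ) + -1) ≠ 0 :=
        mul_ne_zero (pow_ne_zero _ hvp0) WithZero.exp_ne_zero
      have h3 : v.valuation K (p : K) ^ 2 * WithZero.exp (-(((0 : ℕ) : ℤ) + 1)) * WithZero.exp 1
          = v.valuation K (p : K) ^ 2 := by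
        rw [mul_assoc, ← WithZero.exp_add]
        simp
      rw [← WithZero.lt_mul_exp_iff_le (by simpa using h2), h3]
      exact hb
    | succ m ih =>
      obtain ⟨x, hx, hxb⟩ := ih
      obtain ⟨x', hx', hxb'⟩ := newton_step_pow (v.valuation K) p hp0 hp1 b x hx
        (WithZero.exp (-((m : ℤ) + 1))) (by
          rw [← WithZero.exp_zero, WithZero.exp_lt_exp]
          omega) hxb
      refine ⟨x', hx', hxb'.trans ?_⟩
      gcongr
      rw [← WithZero.exp_nsmul, WithZero.exp_le_exp]
      push_cast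
      simp only [nsmul_eq_mul]
      push_cast
      nlinarith [Int.natCast_nonneg m]
  obtain ⟨x, hx, hxb⟩ := key n
  have hx0 : x ≠ 0 := by
    intro h0
    rw [h0, map_zero] at hx
    exact zero_ne_one hx
  refine ⟨x, hx0, ?_⟩
  have h1 : b / x ^ p - 1 = -(x ^ p - b) / x ^ p := by
    field_simp
    ring
  rw [h1, map_div₀, Valuation.map_neg, map_pow, hx, one_pow, div_one]
  calc v.valuation K (x ^ p - b)
      ≤ v.valuation K (p : K) ^ 2 * WithZero.exp (-((n : ℤ) + 1)) := hxb
    _ ≤ 1 * WithZero.exp (-((n : ℤ) + 1)) := by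
      gcongr
      exact pow_le_one' hp1 2
    _ = WithZero.exp (-((n : ℤ) + 1)) := one_mul _
    _ ≤ WithZero.exp (-(n : ℤ)) := by
      rw [WithZero.exp_le_exp]
      omega

variable {K} in
/-- Elements close to `1` are approximate norms from an extension of degree `p`. -/
theorem approxNorm_of_close_one (v : HeightOneSpectrum (𝓞 K)) (p : ℕ) (hp : p.Prime)
    (hdeg : Module.finrank K L = p) (b : K)
    (hb : v.valuation K (b - 1) < v.valuation K (p : K) ^ 2) : ApproxNorm K L v b := by
  refine ApproxNorm.of_close (fun n => ?_)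
  obtain ⟨x, hx0, hx⟩ := exists_pow_close v p hp b hb n
  refine ⟨x ^ p, ?_, hx⟩
  have := approxNorm_pow_finrank K L v x hx0
  rwa [hdeg] at this

end Fermat.Agent.CFT.Global.HasseNorm
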