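import Fermat.Agent.CFT.Global.HasseNorm.Defs

/-!
# `Cl_T(K) = 0` for `T` large (brick B4)
-/

set_option autoImplicit false

open scoped NumberField WithZero nonZeroDivisors
open IsDedekindDomain

namespace Fermat.Agent.CFT.Global.HasseNorm

namespace Principal

variable {R : Type*} [CommRing R] [IsDedekindDomain R] {F : Type*} [Field F] [Algebra R F]
  [IsFractionRing R F]

/-- If `v` does not divide `(β)` then `v(β) = 1`. -/
theorem valuation_eq_one_of_not_dvd (v : HeightOneSpectrum R) (β : R)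
    (h : ¬ v.asIdeal ∣ Ideal.span {β}) : v.valuation F (algebraMap R F β) = 1 := by
  rw [HeightOneSpectrum.valuation_eq_one_iff_notMem]
  rwa [← Ideal.dvd_span_singleton]

/-- If `v * J = (β)` and `v ∤ J` then `v(β) = exp (-1)`. -/
theorem valuation_eq_exp_neg_one (v : HeightOneSpectrum R) (J : Ideal R) (β : R)
    (hβ : v.asIdeal * J = Ideal.span {β}) (hJ : ¬ v.asIdeal ∣ J) :
    v.valuation F (algebraMap R F β) = WithZero.exp (-1 : ℤ) := by
  rw [HeightOneSpectrum.valuation_of_algebraMap]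
  have hβ0 : β ≠ 0 := by
    rintro rfl
    apply hJ
    have h0 : v.asIdeal * J = 0 := by rw [hβ]; simp
    rcases mul_eq_zero.1 h0 with h | h
    · exact absurd h v.ne_bot
    · rw [h]; exact dvd_zero _
  have h1 : v.intValuation β ≤ WithZero.exp (-((1 : ℕ) : ℤ)) :=
    (v.intValuation_le_pow_iff_dvd β 1).2 (by rw [pow_one, ← hβ]; exact Dvd.intro _ rfl)
  have h2 : ¬ v.intValuation β ≤ WithZero.exp (-((2 : ℕ) : ℤ)) := by
    intro h
    have h3 := (v.intValuation_le_pow_iff_dvd β 2).1 h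
    rw [← hβ, pow_two] at h3
    exact hJ ((mul_dvd_mul_iff_left v.ne_bot).1 h3)
  rw [v.intValuation_if_neg hβ0] at h1 h2 ⊢
  rw [WithZero.exp_le_exp] at h1 h2
  congr 1
  omega

end Principal

variable (K : Type*) [Field K] [NumberField K]

/-- Finiteness of the class group: there is a finite set `T₀` of primes such that every prime
outside any `T ⊇ T₀` is principal up to `T`. -/
theorem exists_finset_principalOutside :
    ∃ T₀ : Finset (HeightOneSpectrum (𝓞 K)), ∀ T : Set (HeightOneSpectrum (𝓞 K)),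
      ↑T₀ ⊆ T → PrincipalOutside K T := by
  classical
  have hsurj := ClassGroup.mk0_surjective (R := 𝓞 K)
  choose J hJ using hsurj
  have hfin : ∀ c : ClassGroup (𝓞 K),
      {v : HeightOneSpectrum (𝓞 K) | v.asIdeal ∣ (J c : Ideal (𝓞 K))}.Finite :=
    fun c => Ideal.finite_factors (nonZeroDivisors.coe_ne_zero (J c))
  refine ⟨Finset.univ.biUnion fun c => (hfin c).toFinset, fun T hT v hv => ?_⟩
  have hv0 : v.asIdeal ∈ (Ideal (𝓞 K))⁰ := mem_nonZeroDivisors_of_ne_zero v.ne_bot
  obtain ⟨β, -, hβ⟩ := ClassGroup.mk0_eq_mk0_inv_iff.1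
    (hJ (ClassGroup.mk0 ⟨v.asIdeal, hv0⟩)⁻¹)
  set I : Ideal (𝓞 K) := (J (ClassGroup.mk0 ⟨v.asIdeal, hv0⟩)⁻¹ : Ideal (𝓞 K)) with hI
  have hβ' : v.asIdeal * I = Ideal.span {β} := by rw [mul_comm]; exact hβ
  have hnd : ∀ v' : HeightOneSpectrum (𝓞 K), v' ∉ T → ¬ v'.asIdeal ∣ I := by
    intro v' hv' hdvd
    apply hv'
    apply hT
    rw [Finset.mem_coe, Finset.mem_biUnion]
    exact ⟨_, Finset.mem_univ _, (Set.Finite.mem_toFinset _).2 hdvd⟩
  refine ⟨algebraMap (𝓞 K) K β, ?_, fun v' hv' hne => ?_⟩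
  · exact Principal.valuation_eq_exp_neg_one v I β hβ' (hnd v hv)
  · apply Principal.valuation_eq_one_of_not_dvd
    rw [← hβ']
    intro hdvd
    rcases v'.prime.dvd_or_dvd hdvd with h | h
    · apply hne
      apply HeightOneSpectrum.ext
      exact (v.isMaximal.eq_of_le v'.isPrime.ne_top (Ideal.le_of_dvd h)).symm
    · exact hnd v' hv' h

variable {K} in
/-- If `Cl_T(K) = 0`, every finitely supported family of exponents outside `T` is the divisor
(outside `T`) of an element of `Kˣ`. -/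
theorem PrincipalOutside.exists_valuation_eq {T : Set (HeightOneSpectrum (𝓞 K))}
    (hT : PrincipalOutside K T) (c : HeightOneSpectrum (𝓞 K) → ℤ)
    (hc : {v | v ∉ T ∧ c v ≠ 0}.Finite) :
    ∃ α : Kˣ, ∀ v, v ∉ T → v.valuation K (α : K) = WithZero.exp (c v) := by
  classical
  have hex : ∀ v : HeightOneSpectrum (𝓞 K), ∃ π : Kˣ, v ∉ T →
      (v.valuation K (π : K) = WithZero.exp (-1 : ℤ) ∧
        ∀ v', v' ∉ T → v' ≠ v → v'.valuation K (π : K) = 1) := by
    intro v
    by_cases hv : v ∈ T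
    · exact ⟨1, fun h => absurd hv h⟩
    · obtain ⟨π, h1, h2⟩ := hT v hv
      have hπ : π ≠ 0 := by
        rintro rfl
        rw [map_zero] at h1
        exact WithZero.exp_ne_zero.symm h1
      exact ⟨Units.mk0 π hπ, fun _ => ⟨h1, h2⟩⟩
  choose π hπ using hex
  refine ⟨∏ v ∈ hc.toFinset, (π v) ^ (-(c v)), fun v' hv' => ?_⟩
  rw [Units.coe_prod, map_prod]
  have hfac : ∀ v ∈ hc.toFinset, v'.valuation K ((π v ^ (-(c v)) : Kˣ) : K) =
      if v = v' then WithZero.exp (c v') else 1 := by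
    intro v hv
    have hvT : v ∉ T := ((hc.mem_toFinset).1 hv).1
    rw [Units.val_zpow_eq_zpow_val, map_zpow₀]
    split_ifs with h
    · subst h
      rw [(hπ v hvT).1, ← WithZero.exp_zsmul]
      simp
    · rw [(hπ v hvT).2 v' hv' (Ne.symm h), one_zpow]
  rw [Finset.prod_congr rfl hfac, Finset.prod_ite_eq']
  split_ifs with h
  · rfl
  · have h0 : c v' = 0 := by
      by_contra h0
      exact h ((hc.mem_toFinset).2 ⟨hv', h0⟩)
    rw [h0, WithZero.exp_zero]

/-- The valuation of a nonzero element is `1` at all but finitely many places. -/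
theorem finite_valuation_ne_one (b : K) (hb : b ≠ 0) :
    {v : HeightOneSpectrum (𝓞 K) | v.valuation K b ≠ 1}.Finite := by
  obtain ⟨n, d, hd, rfl⟩ : ∃ n d : 𝓞 K, d ≠ 0 ∧ b = algebraMap (𝓞 K) K n / algebraMap (𝓞 K) K d := by
    obtain ⟨n, ⟨d, hd⟩, h⟩ := IsLocalization.exists_mk'_eq (nonZeroDivisors (𝓞 K)) b
    refine ⟨n, d, nonZeroDivisors.ne_zero hd, ?_⟩
    rw [← h, IsFractionRing.mk'_eq_div]
  have hn : n ≠ 0 := by
    rintro rfl
    simp at hb
  have hfn := Ideal.finite_factors (I := Ideal.span {n}) (by simpa using hn)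
  have hfd := Ideal.finite_factors (I := Ideal.span {d}) (by simpa using hd)
  refine (hfn.union hfd).subset fun v hv => ?_
  by_contra hcon
  simp only [Set.mem_union, Set.mem_ofPred_eq, not_or] at hcon
  apply hv
  rw [map_div₀, Principal.valuation_eq_one_of_not_dvd v n hcon.1,
    Principal.valuation_eq_one_of_not_dvd v d hcon.2, div_one]

end Fermat.Agent.CFT.Global.HasseNorm
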