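import Fermat.Agent.CFT.Global.HasseNorm.GaloisVal
import Fermat.Agent.CFT.Global.HasseNorm.Principal

/-!
# Auxiliary lemmas for the second inequality in `T`-unit form (brick B9)

* `finite_and_card_le_of_quotients` : an abelian group of exponent `p` all of whose finite
  quotients have order `≤ p` is finite of order `≤ p` (so the universal norm-index inequality,
  which is stated for finite groups, can be applied without proving finiteness by hand).
* `exists_norm_of_inertiaDeg_eq_one` : a prime of `K` outside `T` with a degree-one prime of `L`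
  above it is generated, outside `T`, by a norm from `L`.
-/

set_option autoImplicit false

open scoped NumberField WithZero
open IsDedekindDomain

namespace Fermat.Agent.CFT.Global.HasseNorm

universe u

/-- A vector space over `𝔽_p` without a linear surjection onto `𝔽_p²` is finite of order at
most `p`. -/
theorem finite_and_card_le_of_no_surj {p : ℕ} [Fact p.Prime] {V : Type u} [AddCommGroup V]
    [Module (ZMod p) V]
    (h : ∀ g : V →ₗ[ZMod p] (Fin 2 → ZMod p), ¬ Function.Surjective g) :
    Finite V ∧ Nat.card V ≤ p := by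
  have hp : p.Prime := Fact.out
  have hrank : Module.rank (ZMod p) V ≤ 1 := by
    by_contra hcon
    rw [not_le] at hcon
    have hx : ∃ x : V, x ≠ 0 := by
      by_contra hx
      push Not at hx
      have : Subsingleton V := ⟨fun a b => by rw [hx a, hx b]⟩
      rw [rank_subsingleton'] at hcon
      exact absurd hcon (by simp)
    obtain ⟨x, hx⟩ := hx
    obtain ⟨y, hy⟩ := exists_linearIndependent_pair_of_one_lt_rank hcon hx
    let f : (Fin 2 → ZMod p) →ₗ[ZMod p] V := Fintype.linearCombination (ZMod p) ![x, y]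
    have hf : LinearMap.ker f = ⊥ := Fintype.linearIndependent_iff'.1 hy
    obtain ⟨g, hg⟩ := f.exists_leftInverse_of_injective hf
    exact h g (fun z => ⟨f z, by rw [← LinearMap.comp_apply, hg]; rfl⟩)
  have hfd : Module.Finite (ZMod p) V := by
    rw [← Module.rank_lt_aleph0_iff]
    exact lt_of_le_of_lt hrank Cardinal.one_lt_aleph0
  have hfin : Finite V := Module.finite_of_finite (ZMod p)
  have hfr : Module.finrank (ZMod p) V ≤ 1 := by
    have h1 := Module.finrank_eq_rank (ZMod p) V
    rw [← h1] at hrank
    exact_mod_cast hrank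
  refine ⟨hfin, ?_⟩
  rw [Module.natCard_eq_pow_finrank (K := ZMod p), Nat.card_zmod]
  calc p ^ Module.finrank (ZMod p) V ≤ p ^ 1 := Nat.pow_le_pow_right hp.pos hfr
    _ = p := pow_one p

/-- Finiteness for free: an abelian group of exponent `p` all of whose finite quotients have
order at most `p` is finite of order at most `p`. -/
theorem finite_and_card_le_of_quotients {A : Type u} [CommGroup A] {p : ℕ} (hp : p.Prime)
    (hpow : ∀ a : A, a ^ p = 1)
    (h : ∀ N : Subgroup A, Finite (A ⧸ N) → Nat.card (A ⧸ N) ≤ p) :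
    Finite A ∧ Nat.card A ≤ p := by
  have : Fact p.Prime := ⟨hp⟩
  have : NeZero p := ⟨hp.ne_zero⟩
  have hnsmul : ∀ a : Additive A, p • a = 0 := fun a => congrArg Additive.ofMul (hpow a.toMul)
  refine @finite_and_card_le_of_no_surj p _ (Additive A) _ (AddCommGroup.zmodModule hnsmul) ?_
  intro g hgs
  let φ : A →* Multiplicative (Fin 2 → ZMod p) :=
    AddMonoidHom.toMultiplicativeRight g.toAddMonoidHom
  have hφ : Function.Surjective φ := fun z => by
    obtain ⟨a, ha⟩ := hgs z.toAdd
    exact ⟨a.toMul, congrArg Multiplicative.ofAdd ha⟩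
  let e := QuotientGroup.quotientKerEquivOfSurjective φ hφ
  have : Finite (A ⧸ φ.ker) := Finite.of_equiv _ e.symm.toEquiv
  have hc := h φ.ker inferInstance
  rw [Nat.card_congr e.toEquiv] at hc
  have hcard : Nat.card (Multiplicative (Fin 2 → ZMod p)) = p ^ 2 := by
    rw [Nat.card_eq_fintype_card]
    simp [ZMod.card]
  rw [hcard] at hc
  nlinarith [hp.two_le]

variable (K L : Type*) [Field K] [NumberField K] [Field L] [NumberField L] [Algebra K L]

/-- **Degree-one primes are norms up to `T`.**  If `Cl_T(L) = 0`, the primes outside `T` are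
unramified and `w` is a prime of `L` outside `T` of residue degree one over `v = w ∩ K`, then
there is `ϖ ∈ Lˣ` whose norm is a uniformiser at `v` and a unit at all other primes outside `T`. -/
theorem exists_norm_of_inertiaDeg_eq_one [IsGalois K L] (T : Set (HeightOneSpectrum (𝓞 K)))
    (hTL : PrincipalOutside L (above K L T)) (hR : ValCompatOutside K L T)
    (w : HeightOneSpectrum (𝓞 L)) (hw : w.under (𝓞 K) ∉ T)
    (hf : w.asIdeal.inertiaDeg (𝓞 K) = 1) :
    ∃ ϖ : L, ϖ ≠ 0 ∧
      (w.under (𝓞 K)).valuation K (Algebra.norm K ϖ) = WithZero.exp (-1 : ℤ) ∧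
      ∀ v', v' ∉ T → v' ≠ w.under (𝓞 K) → v'.valuation K (Algebra.norm K ϖ) = 1 := by
  classical
  obtain ⟨ϖ, hϖw, hϖo⟩ := hTL w hw
  have hϖ0 : ϖ ≠ 0 := by
    rintro rfl
    rw [map_zero] at hϖw
    exact WithZero.exp_ne_zero hϖw.symm
  refine ⟨ϖ, hϖ0, ?_, ?_⟩
  · rw [← hR w hw, valuation_norm K L w ϖ]
    rw [Finset.prod_eq_single (1 : L ≃ₐ[K] L)]
    · rw [galSmul_one, hϖw]
    · intro τ _ hτ
      refine hϖo _ ?_ (galSmul_ne_of_inertiaDeg_eq_one K L w (hR w hw) hf τ hτ)
      show (galSmul K L τ w).under (𝓞 K) ∉ T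
      rw [under_galSmul]
      exact hw
    · intro h
      exact absurd (Finset.mem_univ _) h
  · intro v' hv' hne
    obtain ⟨w', hw'⟩ := exists_under_eq K L v'
    have hw'T : w'.under (𝓞 K) ∉ T := by rw [hw']; exact hv'
    have h1 := hR w' hw'T (Algebra.norm K ϖ)
    rw [hw'] at h1
    rw [← h1, valuation_norm K L w' ϖ]
    refine Finset.prod_eq_one (fun τ _ => ?_)
    refine hϖo _ ?_ ?_
    · show (galSmul K L τ w').under (𝓞 K) ∉ T
      rw [under_galSmul]
      exact hw'T
    · intro h
      apply hne
      rw [← hw', ← under_galSmul K L τ w', h]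

end Fermat.Agent.CFT.Global.HasseNorm
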