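import Fermat.Agent.CFT.Global.HasseNorm.Hyp
import Fermat.Agent.CFT.Global.HasseNorm.Newton
import Fermat.Agent.CFT.Global.HasseNorm.WeakApprox

/-!
# The second inequality in `T`-unit form (brick B9)

`[Kˣ : U_T · AN_T] ≤ p`, from the universal norm-index inequality applied to
`φ(I) = class of α_I⁻¹`, where `α_I` generates `I` outside `T`.
-/

set_option autoImplicit false

open scoped NumberField WithZero nonZeroDivisors
open IsDedekindDomain

namespace Fermat.Agent.CFT.Global.HasseNorm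

/-- A vector space over `𝔽_p` of dimension `> 1` surjects onto `𝔽_p²`; otherwise it has at most
`p` elements. -/
theorem exists_surjective_or_card_le {p : ℕ} [Fact p.Prime] (Q : Type*) [AddCommGroup Q]
    [Module (ZMod p) Q] :
    (∃ g : Q →ₗ[ZMod p] (Fin 2 → ZMod p), Function.Surjective g) ∨
      (Finite Q ∧ Nat.card Q ≤ p) := by
  classical
  by_cases hr : 1 < Module.rank (ZMod p) Q
  · left
    have hnt : ∃ x : Q, x ≠ 0 := by
      by_contra hcon
      push Not at hcon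
      have : Subsingleton Q := ⟨fun a b => by rw [hcon a, hcon b]⟩
      have h0 : Module.rank (ZMod p) Q = 0 := rank_subsingleton' (ZMod p) Q
      rw [h0] at hr
      exact absurd hr (by simp)
    obtain ⟨x, hx⟩ := hnt
    obtain ⟨y, hxy⟩ := exists_linearIndependent_pair_of_one_lt_rank hr hx
    have hinj := linearIndependent_iff_injective_fintypeLinearCombination.mp hxy
    obtain ⟨g, hg⟩ := LinearMap.exists_leftInverse_of_injective
      (Fintype.linearCombination (ZMod p) ![x, y]) (LinearMap.ker_eq_bot.mpr hinj)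
    refine ⟨g, fun c => ⟨Fintype.linearCombination (ZMod p) ![x, y] c, ?_⟩⟩
    have := congrArg (fun f => f c) hg
    simpa using this
  · right
    rw [not_lt] at hr
    obtain ⟨v₀, hv₀⟩ := rank_le_one_iff.mp hr
    have hsurj : Function.Surjective (fun r : ZMod p => r • v₀) := hv₀
    have hfin : Finite Q := Finite.of_surjective _ hsurj
    refine ⟨hfin, ?_⟩
    have h2 : Nat.card Q ≤ Nat.card (ZMod p) := Nat.card_le_card_of_surjective _ hsurj
    rwa [Nat.card_zmod] at h2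

/-- A subgroup `H` of a commutative group `G` such that `G/H` has exponent `p` and all finite-index
subgroups above `H` have index at most `p` has itself (finite) index at most `p`. -/
theorem index_le_of_forall_finiteIndex {G : Type*} [CommGroup G] (H : Subgroup G) {p : ℕ}
    (hp : p.Prime) (hpow : ∀ g : G, g ^ p ∈ H)
    (hfin : ∀ H' : Subgroup G, H ≤ H' → H'.index ≠ 0 → H'.index ≤ p) :
    H.index ≠ 0 ∧ H.index ≤ p := by
  classical
  have : Fact p.Prime := ⟨hp⟩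
  have hpQ : ∀ q : Additive (G ⧸ H), p • q = 0 := by
    intro q
    obtain ⟨g, rfl⟩ := QuotientGroup.mk_surjective (Additive.toMul q)
    show Additive.ofMul ((QuotientGroup.mk g : G ⧸ H) ^ p) = 0
    rw [← QuotientGroup.mk_pow, (QuotientGroup.eq_one_iff _).mpr (hpow g)]
    rfl
  let _ : Module (ZMod p) (Additive (G ⧸ H)) := AddCommGroup.zmodModule hpQ
  have key : (∃ g' : Additive (G ⧸ H) →+ (Fin 2 → ZMod p), Function.Surjective g') ∨
      (Finite (Additive (G ⧸ H)) ∧ Nat.card (Additive (G ⧸ H)) ≤ p) := by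
    rcases exists_surjective_or_card_le (p := p) (Additive (G ⧸ H)) with ⟨g, hgsurj⟩ | h
    · exact Or.inl ⟨g.toAddMonoidHom, hgsurj⟩
    · exact Or.inr h
  rcases key with ⟨g', hgsurj⟩ | ⟨hQfin, hQcard⟩
  · exfalso
    let ψ : G →* Multiplicative (Fin 2 → ZMod p) :=
      (AddMonoidHom.toMultiplicativeRight g').comp (QuotientGroup.mk' H)
    have hψ : ∀ a : G, ψ a = Multiplicative.ofAdd (g' (Additive.ofMul (QuotientGroup.mk a))) :=
      fun a => rfl
    have hψsurj : Function.Surjective ψ := by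
      intro c
      obtain ⟨q, hq⟩ := hgsurj (Multiplicative.toAdd c)
      obtain ⟨a, ha⟩ := QuotientGroup.mk_surjective (Additive.toMul q)
      refine ⟨a, ?_⟩
      rw [hψ, ha]
      exact congrArg Multiplicative.ofAdd hq
    have hle : H ≤ ψ.ker := by
      intro a ha
      rw [MonoidHom.mem_ker, hψ, (QuotientGroup.eq_one_iff a).mpr ha]
      show Multiplicative.ofAdd (g' 0) = 1
      rw [map_zero]
      rfl
    have hidx : ψ.ker.index = p ^ 2 := by
      rw [Subgroup.index_ker, MonoidHom.range_eq_top.mpr hψsurj, Subgroup.card_top]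
      rw [Nat.card_eq_fintype_card]
      simp [ZMod.card]
    have h1 := hfin ψ.ker hle (by rw [hidx]; exact pow_ne_zero 2 hp.ne_zero)
    rw [hidx] at h1
    have h2 : p * p ≤ p * 1 := by simpa [pow_two] using h1
    have h3 := Nat.le_of_mul_le_mul_left h2 hp.pos
    exact absurd hp.one_lt (not_lt.mpr h3)
  · have : Finite (G ⧸ H) := hQfin
    exact ⟨Subgroup.index_ne_zero_iff_finite.mpr inferInstance, hQcard⟩


universe u v

section Gen

variable (K : Type u) [Field K] [NumberField K]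

/-- `α` generates the ideal `I` outside `T`: `v(α) = v(I)` for all `v ∉ T`. -/
def IsGenOutside (T : Set (HeightOneSpectrum (𝓞 K))) (I : Ideal (𝓞 K)) (α : Kˣ) : Prop :=
  ∀ v, v ∉ T → v.valuation K (α : K) =
    WithZero.exp (-(FractionalIdeal.count K v (I : FractionalIdeal (𝓞 K)⁰ K)))

variable {K}

theorem IsGenOutside.mul {T : Set (HeightOneSpectrum (𝓞 K))} {I J : Ideal (𝓞 K)} {α β : Kˣ}
    (hα : IsGenOutside K T I α) (hβ : IsGenOutside K T J β) (hI : I ≠ ⊥) (hJ : J ≠ ⊥) :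
    IsGenOutside K T (I * J) (α * β) := by
  intro v hv
  have hI' : (I : FractionalIdeal (𝓞 K)⁰ K) ≠ 0 := FractionalIdeal.coeIdeal_ne_zero.mpr hI
  have hJ' : (J : FractionalIdeal (𝓞 K)⁰ K) ≠ 0 := FractionalIdeal.coeIdeal_ne_zero.mpr hJ
  rw [Units.val_mul, map_mul, hα v hv, hβ v hv, FractionalIdeal.coeIdeal_mul,
    FractionalIdeal.count_mul K v hI' hJ', neg_add, WithZero.exp_add]

theorem isGenOutside_top (T : Set (HeightOneSpectrum (𝓞 K))) : IsGenOutside K T ⊤ 1 := by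
  intro v _
  rw [FractionalIdeal.coeIdeal_top, FractionalIdeal.count_one, neg_zero, WithZero.exp_zero,
    Units.val_one, map_one]

theorem isGenOutside_span (T : Set (HeightOneSpectrum (𝓞 K))) (a : 𝓞 K) (ha : a ≠ 0)
    (α : Kˣ) (hα : (α : K) = algebraMap (𝓞 K) K a) :
    IsGenOutside K T (Ideal.span {a}) α := by
  intro v _
  have hs : (Ideal.span {a} : Ideal (𝓞 K)) ≠ 0 := by
    simpa [Ideal.span_singleton_eq_bot] using ha
  rw [hα, HeightOneSpectrum.valuation_of_algebraMap, v.intValuation_if_neg ha,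
    FractionalIdeal.count_coe K v hs]

theorem isGenOutside_of_mem {T : Set (HeightOneSpectrum (𝓞 K))} {v₀ : HeightOneSpectrum (𝓞 K)}
    (hv₀ : v₀ ∈ T) : IsGenOutside K T v₀.asIdeal 1 := by
  intro v hv
  have hne : v₀ ≠ v := fun h => hv (h ▸ hv₀)
  rw [FractionalIdeal.count_maximal_coprime K v hne, neg_zero, WithZero.exp_zero, Units.val_one,
    map_one]

theorem IsGenOutside.div_mem_unit {T : Set (HeightOneSpectrum (𝓞 K))} {I : Ideal (𝓞 K)}
    {α β : Kˣ} (hα : IsGenOutside K T I α) (hβ : IsGenOutside K T I β) :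
    α⁻¹ * β ∈ T.unit K := by
  intro v hv
  rw [Units.val_mul, Units.val_inv_eq_inv_val, map_mul, map_inv₀, hα v hv, hβ v hv]
  exact inv_mul_cancel₀ WithZero.exp_ne_zero

theorem exists_isGenOutside {T : Set (HeightOneSpectrum (𝓞 K))} (hT : PrincipalOutside K T)
    (I : Ideal (𝓞 K)) : ∃ α : Kˣ, IsGenOutside K T I α := by
  refine hT.exists_valuation_eq
    (fun v => -(FractionalIdeal.count K v (I : FractionalIdeal (𝓞 K)⁰ K))) ?_
  have hfin := FractionalIdeal.finite_factors (K := K) (I : FractionalIdeal (𝓞 K)⁰ K)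
  rw [Filter.eventually_cofinite] at hfin
  refine hfin.subset ?_
  rintro v ⟨-, hv⟩
  simpa using hv

open Classical in
/-- The map `I ↦ class of (a generator of I outside T)⁻¹` with values in `Kˣ ⧸ H`. -/
noncomputable def rayMap (T : Set (HeightOneSpectrum (𝓞 K))) (H : Subgroup Kˣ)
    (I : Ideal (𝓞 K)) : Kˣ ⧸ H :=
  if h : ∃ α : Kˣ, IsGenOutside K T I α then (QuotientGroup.mk (Classical.choose h))⁻¹ else 1

theorem rayMap_eq {T : Set (HeightOneSpectrum (𝓞 K))} {H : Subgroup Kˣ} (hU : T.unit K ≤ H)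
    {I : Ideal (𝓞 K)} {α : Kˣ} (hα : IsGenOutside K T I α) :
    rayMap T H I = (QuotientGroup.mk α : Kˣ ⧸ H)⁻¹ := by
  have h : ∃ α : Kˣ, IsGenOutside K T I α := ⟨α, hα⟩
  rw [rayMap, dif_pos h]
  refine congrArg Inv.inv ?_
  rw [QuotientGroup.eq]
  exact hU ((Classical.choose_spec h).div_mem_unit hα)

end Gen

section Main

variable (K : Type u) (L : Type v) [Field K] [NumberField K] [Field L] [NumberField L]
  [Algebra K L]

/-- For a prime `w` of `L` outside `T`, unramified of degree one over `K`, the prime `w ∩ K` is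
generated outside `T` by a norm from `L`. -/
theorem exists_isGenOutside_norm [IsGalois K L] (T : Set (HeightOneSpectrum (𝓞 K)))
    (hR : ValCompatOutside K L T) (hTL : PrincipalOutside L (above K L T))
    (w : HeightOneSpectrum (𝓞 L)) (hw : w.under (𝓞 K) ∉ T)
    (hf : w.asIdeal.inertiaDeg (𝓞 K) = 1) :
    ∃ y : Lˣ, IsGenOutside K T (w.under (𝓞 K)).asIdeal (normHom K L y) := by
  classical
  obtain ⟨ϖ, hϖ1, hϖ2⟩ := hTL w hw
  have hϖ0 : ϖ ≠ 0 := by
    rintro rfl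
    rw [map_zero] at hϖ1
    exact WithZero.exp_ne_zero hϖ1.symm
  refine ⟨Units.mk0 ϖ hϖ0, ?_⟩
  intro v' hv'
  have hN : ((normHom K L (Units.mk0 ϖ hϖ0) : Kˣ) : K) = Algebra.norm K ϖ := rfl
  rw [hN]
  by_cases hvv : w.under (𝓞 K) = v'
  · subst hvv
    rw [FractionalIdeal.count_self, ← hR w hw, valuation_norm,
      Finset.prod_eq_single (1 : L ≃ₐ[K] L)]
    · rw [galSmul_one, hϖ1]
    · intro τ _ hτ
      refine hϖ2 _ ?_ (galSmul_ne_of_inertiaDeg_eq_one K L w (hR w hw) hf τ hτ)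
      show (galSmul K L τ w).under (𝓞 K) ∉ T
      rwa [under_galSmul]
    · intro h
      exact absurd (Finset.mem_univ _) h
  · rw [FractionalIdeal.count_maximal_coprime K v' hvv, neg_zero, WithZero.exp_zero]
    obtain ⟨w', hw'⟩ := exists_under_eq K L v'
    have hw'T : w'.under (𝓞 K) ∉ T := by rwa [hw']
    rw [← hw', ← hR w' hw'T, valuation_norm]
    refine Finset.prod_eq_one ?_
    intro τ _
    refine hϖ2 _ ?_ ?_
    · show (galSmul K L τ w').under (𝓞 K) ∉ T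
      rwa [under_galSmul]
    · intro h
      apply hvv
      rw [← h, under_galSmul, hw']

theorem exists_nat_exp_lt (γ : ℤᵐ⁰) (hγ : γ ≠ 0) :
    ∃ n : ℕ, WithZero.exp (-((n + 1 : ℕ) : ℤ)) < γ := by
  refine ⟨(-(WithZero.log γ)).toNat, ?_⟩
  have h1 := Int.self_le_toNat (-(WithZero.log γ))
  have h2 : WithZero.exp (-(((-(WithZero.log γ)).toNat + 1 : ℕ) : ℤ)) <
      WithZero.exp (WithZero.log γ) := by
    rw [WithZero.exp_lt_exp]
    push_cast
    omega
  rwa [WithZero.exp_log hγ] at h2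

/-- **Second inequality, `T`-unit form.** If `Cl_T(K) = Cl_T(L) = 0` and `T` contains the ramified
primes, then `U_T · AN_T` has index at most `p = [L:K]` in `Kˣ`. -/
theorem index_unit_sup_approxNormOn_le [IsGalois K L] {p : ℕ} (hp : p.Prime)
    (hdeg : Module.finrank K L = p) (hA3 : NormIndexIneq K L)
    (T : Finset (HeightOneSpectrum (𝓞 K)))
    (hTK : PrincipalOutside K (T : Set (HeightOneSpectrum (𝓞 K))))
    (hTL : PrincipalOutside L (above K L (T : Set (HeightOneSpectrum (𝓞 K)))))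
    (hR : ValCompatOutside K L (T : Set (HeightOneSpectrum (𝓞 K)))) :
    ((T : Set (HeightOneSpectrum (𝓞 K))).unit K ⊔
        approxNormOn K L (T : Set (HeightOneSpectrum (𝓞 K)))).index ≠ 0 ∧
    ((T : Set (HeightOneSpectrum (𝓞 K))).unit K ⊔
        approxNormOn K L (T : Set (HeightOneSpectrum (𝓞 K)))).index ≤ p := by
  classical
  set U : Subgroup Kˣ := (T : Set (HeightOneSpectrum (𝓞 K))).unit K with hU
  set AN : Subgroup Kˣ := approxNormOn K L (T : Set (HeightOneSpectrum (𝓞 K))) with hAN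
  have hpow : ∀ g : Kˣ, g ^ p ∈ U ⊔ AN := by
    intro g
    refine Subgroup.mem_sup_right ?_
    rw [hAN, mem_approxNormOn]
    intro v _
    have := approxNorm_pow_finrank K L v (g : K) g.ne_zero
    rw [hdeg] at this
    simpa using this
  refine index_le_of_forall_finiteIndex (U ⊔ AN) hp hpow ?_
  intro H hH hHfin
  have hUH : U ≤ H := le_sup_left.trans hH
  have hANH : AN ≤ H := le_sup_right.trans hH
  have hFin : Finite (Kˣ ⧸ H) := Subgroup.index_ne_zero_iff_finite.mp hHfin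
  -- the modulus
  have hpK : (p : K) ≠ 0 := Nat.cast_ne_zero.mpr hp.ne_zero
  have hc : ∀ v : HeightOneSpectrum (𝓞 K), ∃ n : ℕ,
      WithZero.exp (-((n + 1 : ℕ) : ℤ)) < v.valuation K (p : K) ^ 2 := fun v =>
    exists_nat_exp_lt _ (pow_ne_zero 2 ((Valuation.ne_zero_iff _).mpr hpK))
  choose c hc using hc
  set 𝔪 : Ideal (𝓞 K) := ∏ v ∈ T, v.asIdeal ^ (c v + 1) with h𝔪def
  have h𝔪 : 𝔪 ≠ ⊥ := by
    rw [h𝔪def]
    exact Finset.prod_ne_zero_iff.mpr (fun v _ => pow_ne_zero _ v.ne_bot)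
  have h𝔪le : ∀ v ∈ T, 𝔪 ≤ v.asIdeal ^ (c v + 1) := fun v hv =>
    Ideal.prod_le_inf.trans (Finset.inf_le hv)
  have hcop : ∀ v : HeightOneSpectrum (𝓞 K), v ∉ T → IsCoprime v.asIdeal 𝔪 := by
    intro v hv
    rw [h𝔪def]
    refine IsCoprime.prod_right (fun v' hv' => IsCoprime.pow_right ?_)
    refine Ideal.isCoprime_iff_sup_eq.mpr (Ideal.IsMaximal.coprime_of_ne v.isMaximal v'.isMaximal ?_)
    intro h
    exact hv (HeightOneSpectrum.ext h ▸ hv')
  set φ : Ideal (𝓞 K) → Kˣ ⧸ H := rayMap (T : Set (HeightOneSpectrum (𝓞 K))) H with hφ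
  have hφ_mul : ∀ I J : Ideal (𝓞 K), I ≠ ⊥ → J ≠ ⊥ → φ (I * J) = φ I * φ J := by
    intro I J hI hJ
    obtain ⟨α, hα⟩ := exists_isGenOutside hTK I
    obtain ⟨β, hβ⟩ := exists_isGenOutside hTK J
    rw [hφ, rayMap_eq hUH hα, rayMap_eq hUH hβ, rayMap_eq hUH (hα.mul hβ hI hJ),
      QuotientGroup.mk_mul, mul_inv]
  have hφ_of_mem : ∀ (I : Ideal (𝓞 K)) (α : Kˣ),
      IsGenOutside K (T : Set (HeightOneSpectrum (𝓞 K))) I α → α ∈ AN → φ I = 1 := by
    intro I α hα hαAN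
    rw [hφ, rayMap_eq hUH hα, inv_eq_one, QuotientGroup.eq_one_iff]
    exact hANH hαAN
  have hφ_ray : ∀ a : 𝓞 K, a ≠ 0 → a - 1 ∈ 𝔪 → φ (Ideal.span {a}) = 1 := by
    intro a ha ham
    have ha' : algebraMap (𝓞 K) K a ≠ 0 := by
      simpa using ha
    refine hφ_of_mem _ (Units.mk0 _ ha') (isGenOutside_span _ a ha _ rfl) ?_
    rw [hAN, mem_approxNormOn]
    intro v hv
    refine approxNorm_of_close_one L v p hp hdeg _ ?_
    have h1 : v.valuation K (algebraMap (𝓞 K) K a - 1) = v.intValuation (a - 1) := by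
      have h0 : algebraMap (𝓞 K) K a - 1 = algebraMap (𝓞 K) K (a - 1) := by
        rw [map_sub, map_one]
      rw [h0, HeightOneSpectrum.valuation_of_algebraMap]
    rw [Units.val_mk0, h1]
    exact lt_of_le_of_lt ((v.intValuation_le_pow_iff_mem _ _).mpr (h𝔪le v hv ham)) (hc v)
  have hφ_prime : ∀ 𝔭 : Ideal (𝓞 K), 𝔭.IsPrime → 𝔭 ≠ ⊥ → IsCoprime 𝔭 𝔪 →
      (∃ 𝔓 : Ideal (𝓞 L), 𝔓.IsPrime ∧ 𝔓.LiesOver 𝔭 ∧ 𝔓.inertiaDeg (𝓞 K) = 1) → φ 𝔭 = 1 := by
    intro 𝔭 h𝔭 h𝔭0 hcop𝔭 h𝔓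
    obtain ⟨𝔓, h𝔓p, h𝔓lo, hf⟩ := h𝔓
    let v : HeightOneSpectrum (𝓞 K) := ⟨𝔭, h𝔭, h𝔭0⟩
    have hvT : v ∉ (T : Set (HeightOneSpectrum (𝓞 K))) := by
      intro hv
      have hv' : v ∈ T := hv
      have h1 : 𝔪 ≤ 𝔭 := (h𝔪le v hv').trans (Ideal.pow_le_self (Nat.succ_ne_zero _))
      have h2 := Ideal.isCoprime_iff_sup_eq.mp hcop𝔭
      rw [sup_eq_left.mpr h1] at h2
      exact h𝔭.ne_top h2
    let w : HeightOneSpectrum (𝓞 L) := ⟨𝔓, h𝔓p, Ideal.ne_bot_of_liesOver_of_ne_bot h𝔭0 𝔓⟩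
    have hwv : w.under (𝓞 K) = v := HeightOneSpectrum.ext (h𝔓lo.over).symm
    have hwT : w.under (𝓞 K) ∉ (T : Set (HeightOneSpectrum (𝓞 K))) := by rwa [hwv]
    obtain ⟨y, hy⟩ := exists_isGenOutside_norm K L _ hR hTL w hwT hf
    rw [hwv] at hy
    refine hφ_of_mem 𝔭 _ hy ?_
    rw [hAN, mem_approxNormOn]
    intro v' _
    exact approxNorm_norm K L v' (y : L) y.ne_zero
  have hφ_top : φ ⊤ = 1 := by
    rw [hφ, rayMap_eq hUH (isGenOutside_top _), QuotientGroup.mk_one, inv_one]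
  have hφ_T : ∀ v ∈ T, φ v.asIdeal = 1 := by
    intro v hv
    rw [hφ, rayMap_eq hUH (isGenOutside_of_mem (T := (T : Set (HeightOneSpectrum (𝓞 K)))) hv),
      QuotientGroup.mk_one, inv_one]
  -- reduction to ideals prime to the modulus
  have hred : ∀ I : Ideal (𝓞 K), I ≠ ⊥ →
      ∃ I' : Ideal (𝓞 K), I' ≠ ⊥ ∧ IsCoprime I' 𝔪 ∧ φ I' = φ I := by
    intro I
    induction I using UniqueFactorizationMonoid.induction_on_prime with
    | h₁ => intro h; exact absurd rfl h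
    | h₂ x hx =>
      intro _
      rw [Ideal.isUnit_iff] at hx
      subst hx
      exact ⟨⊤, top_ne_bot, by rw [← Ideal.one_eq_top]; exact isCoprime_one_left, rfl⟩
    | h₃ a q ha hq ih =>
      intro _
      obtain ⟨I', hI'0, hI'c, hI'φ⟩ := ih ha
      have hq0 : q ≠ ⊥ := hq.ne_zero
      have hqp : q.IsPrime := (Ideal.prime_iff_isPrime hq0).mp hq
      let v : HeightOneSpectrum (𝓞 K) := ⟨q, hqp, hq0⟩
      by_cases hv : v ∈ T
      · refine ⟨I', hI'0, hI'c, ?_⟩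
        rw [hφ_mul q a hq0 ha, hφ_T v hv, one_mul, hI'φ]
      · refine ⟨q * I', mul_ne_zero hq0 hI'0, IsCoprime.mul_left (hcop v hv) hI'c, ?_⟩
        rw [hφ_mul q I' hq0 hI'0, hφ_mul q a hq0 ha, hI'φ]
  -- the image is a submonoid of a finite group, hence a subgroup
  let M : Submonoid (Kˣ ⧸ H) :=
    { carrier := {x | ∃ I : Ideal (𝓞 K), I ≠ ⊥ ∧ IsCoprime I 𝔪 ∧ φ I = x}
      one_mem' := ⟨⊤, top_ne_bot, by rw [← Ideal.one_eq_top]; exact isCoprime_one_left, hφ_top⟩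
      mul_mem' := by
        rintro x y ⟨I, hI0, hIc, rfl⟩ ⟨J, hJ0, hJc, rfl⟩
        exact ⟨I * J, mul_ne_zero hI0 hJ0, IsCoprime.mul_left hIc hJc, hφ_mul I J hI0 hJ0⟩ }
  have hMinv : ∀ x : Kˣ ⧸ H, x ∈ M → x⁻¹ ∈ M := by
    intro x hx
    have hn : 0 < orderOf x := orderOf_pos x
    have h1 : x ^ (orderOf x - 1) * x = 1 := by
      rw [pow_sub_one_mul hn.ne', pow_orderOf_eq_one]
    rw [← eq_inv_of_mul_eq_one_left h1]
    exact M.pow_mem hx _
  have hMa : ∀ (a : 𝓞 K) (ha : algebraMap (𝓞 K) K a ≠ 0),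
      (QuotientGroup.mk (Units.mk0 _ ha) : Kˣ ⧸ H) ∈ M := by
    intro a ha
    have ha0 : a ≠ 0 := by
      rintro rfl
      exact ha (map_zero _)
    have hspan : (Ideal.span {a} : Ideal (𝓞 K)) ≠ ⊥ := by
      simpa [Ideal.span_singleton_eq_bot] using ha0
    obtain ⟨I', hI'0, hI'c, hI'φ⟩ := hred _ hspan
    have h2 : φ (Ideal.span {a}) = (QuotientGroup.mk (Units.mk0 _ ha) : Kˣ ⧸ H)⁻¹ := by
      rw [hφ]
      exact rayMap_eq hUH (isGenOutside_span _ a ha0 _ rfl)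
    have h3 : (QuotientGroup.mk (Units.mk0 _ ha) : Kˣ ⧸ H)⁻¹ ∈ M := ⟨I', hI'0, hI'c, hI'φ.trans h2⟩
    simpa using hMinv _ h3
  have hφ_surj : ∀ x : Kˣ ⧸ H, ∃ I : Ideal (𝓞 K), I ≠ ⊥ ∧ IsCoprime I 𝔪 ∧ φ I = x := by
    intro x
    obtain ⟨b, rfl⟩ := QuotientGroup.mk_surjective x
    obtain ⟨a, s, hs, hb⟩ := IsFractionRing.div_surjective (𝓞 K) (b : K)
    have hs0 : algebraMap (𝓞 K) K s ≠ 0 := by
      have := nonZeroDivisors.ne_zero hs
      simpa using this
    have ha0 : algebraMap (𝓞 K) K a ≠ 0 := by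
      intro h
      rw [h, zero_div] at hb
      exact b.ne_zero hb.symm
    have hbeq : b = Units.mk0 _ ha0 * (Units.mk0 _ hs0)⁻¹ := by
      ext
      rw [Units.val_mul, Units.val_inv_eq_inv_val, Units.val_mk0, Units.val_mk0, ← hb,
        div_eq_mul_inv]
    have : (QuotientGroup.mk b : Kˣ ⧸ H) ∈ M := by
      rw [hbeq, QuotientGroup.mk_mul, QuotientGroup.mk_inv]
      exact M.mul_mem (hMa a ha0) (hMinv _ (hMa s hs0))
    exact this
  have key := hA3 𝔪 h𝔪 (Kˣ ⧸ H) φ hφ_mul hφ_surj hφ_ray hφ_prime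
  rw [hdeg] at key
  exact key

end Main

end Fermat.Agent.CFT.Global.HasseNorm
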