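import Fermat.Agent.CFT.Global.HasseNorm.Main

/-!
# Split places: every element is an approximate norm (consumer-side complement of `hasse_norm`)
-/

set_option autoImplicit false

open scoped NumberField WithZero
open IsDedekindDomain

namespace Fermat.Agent.CFT.Global.HasseNorm

universe u v

variable (K : Type u) (L : Type v) [Field K] [NumberField K] [Field L] [NumberField L]
  [Algebra K L]

namespace Split

/-- A finite product of elements close to `1` is close to `1`. -/
theorem val_prod_sub_one_le {F : Type*} [Field F] [NumberField F] (w : HeightOneSpectrum (𝓞 F))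
    {ι : Type*} (s : Finset ι) (z : ι → F) (n : ℕ)
    (hz : ∀ i ∈ s, w.valuation F (z i - 1) ≤ WithZero.exp (-(n : ℤ))) :
    w.valuation F (∏ i ∈ s, z i - 1) ≤ WithZero.exp (-(n : ℤ)) := by
  classical
  induction s using Finset.induction_on with
  | empty => simp
  | insert a s ha ih =>
    rw [Finset.prod_insert ha]
    exact Approx.val_mul_sub_one_le w (hz a (Finset.mem_insert_self a s))
      (ih fun i hi => hz i (Finset.mem_insert_of_mem hi))

/-- `w(τ x) = (τ⁻¹ w)(x)`. -/
theorem valuation_apply_eq (τ : L ≃ₐ[K] L) (w : HeightOneSpectrum (𝓞 L)) (x : L) :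
    w.valuation L (τ x) = (galSmul K L τ⁻¹ w).valuation L x := by
  have h := valuation_galSmul K L τ (galSmul K L τ⁻¹ w) x
  rwa [← galSmul_mul, mul_inv_cancel, galSmul_one] at h

/-- If there are two distinct places of `L` above the same place of `K` and `[L:K]` is prime,
no nontrivial element of the Galois group fixes a place above it. -/
theorem galSmul_ne_of_ne [IsGalois K L] {p : ℕ} (hp : p.Prime)
    (hdeg : Module.finrank K L = p) (w w' : HeightOneSpectrum (𝓞 L)) (hww' : w ≠ w')
    (hu : w.under (𝓞 K) = w'.under (𝓞 K)) (τ : L ≃ₐ[K] L) (hτ : τ ≠ 1) :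
    galSmul K L τ w ≠ w := by
  let H : Subgroup (L ≃ₐ[K] L) :=
    { carrier := {ρ | galSmul K L ρ w = w}
      one_mem' := galSmul_one K L w
      mul_mem' := fun {a b} ha hb => by
        show galSmul K L (a * b) w = w
        rw [galSmul_mul, show galSmul K L b w = w from hb]
        exact ha
      inv_mem' := fun {a} ha => by
        show galSmul K L a⁻¹ w = w
        have h1 : galSmul K L a⁻¹ (galSmul K L a w) = w := by
          rw [← galSmul_mul, inv_mul_cancel, galSmul_one]
        rwa [show galSmul K L a w = w from ha] at h1 }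
  have hcard : Nat.card (L ≃ₐ[K] L) = p := by
    rw [IsGalois.card_aut_eq_finrank, hdeg]
  have : Fact (Nat.card (L ≃ₐ[K] L)).Prime := ⟨hcard ▸ hp⟩
  intro hfix
  rcases H.eq_bot_or_eq_top_of_prime_card with hbot | htop
  · have hmem : τ ∈ H := hfix
    rw [hbot, Subgroup.mem_bot] at hmem
    exact hτ hmem
  · obtain ⟨ρ, hρ⟩ := exists_galSmul_eq K L w w' hu
    have hmem : ρ ∈ H := by rw [htop]; exact Subgroup.mem_top ρ
    exact hww' ((show galSmul K L ρ w = w from hmem).symm.trans hρ)

/-- From a `w`-adic estimate to a `v`-adic one (`v` below `w`). -/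
theorem valuation_le_of_under (w : HeightOneSpectrum (𝓞 L)) (x : K) (n : ℕ)
    (h : w.valuation L (algebraMap K L x) ≤
      WithZero.exp (-(n : ℤ)) ^ (w.under (𝓞 K)).asIdeal.ramificationIdx' w.asIdeal) :
    (w.under (𝓞 K)).valuation K x ≤ WithZero.exp (-(n : ℤ)) := by
  have : w.asIdeal.LiesOver (w.under (𝓞 K)).asIdeal := ⟨rfl⟩
  have he : (w.under (𝓞 K)).asIdeal.ramificationIdx' w.asIdeal ≠ 0 :=
    Ideal.IsDedekindDomain.ramificationIdx'_ne_zero_of_liesOver w.asIdeal (w.under (𝓞 K)).ne_bot
  rw [← HeightOneSpectrum.valuation_liesOver L (w.under (𝓞 K)) w x] at h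
  exact (pow_le_pow_iff_left₀ zero_le' zero_le' he).mp h

end Split

open Split

/-- **Split places.** If `L/K` is Galois of prime degree and the place `v` of `K` has at least two
places of `L` above it, every nonzero element of `K` is an approximate norm at `v`. -/
theorem approxNorm_of_not_nonsplit [IsGalois K L] {p : ℕ} (hp : p.Prime)
    (hdeg : Module.finrank K L = p) (v : HeightOneSpectrum (𝓞 K)) (hv : ¬ Nonsplit K L v)
    (b : K) (hb : b ≠ 0) : ApproxNorm K L v b := by
  classical
  unfold Nonsplit at hv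
  push Not at hv
  obtain ⟨w, w', hw, hw', hww'⟩ := hv
  subst hw
  -- key claim: `N y / b` can be made close to `1`
  have key : ∀ (c : K), c ≠ 0 → ∀ n : ℕ, ∃ y : L, y ≠ 0 ∧
      (w.under (𝓞 K)).valuation K (Algebra.norm K y / c - 1) ≤ WithZero.exp (-(n : ℤ)) := by
    intro c hc n
    set e := (w.under (𝓞 K)).asIdeal.ramificationIdx' w.asIdeal with he
    set T : Finset (HeightOneSpectrum (𝓞 L)) :=
      Finset.univ.image (fun τ : L ≃ₐ[K] L => galSmul K L τ w) with hT
    set x : HeightOneSpectrum (𝓞 L) → L := fun w'' => if w'' = w then algebraMap K L c else 1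
      with hx
    have hx0 : ∀ w'' ∈ T, x w'' ≠ 0 := by
      intro w'' _
      simp only [hx]
      split_ifs
      · exact (map_ne_zero_iff _ (algebraMap K L).injective).mpr hc
      · exact one_ne_zero
    obtain ⟨y, hy0, hy⟩ := exists_approx L T x hx0 (e * n)
    refine ⟨y, hy0, ?_⟩
    apply valuation_le_of_under K L w _ n
    -- the norm as a product over the Galois group
    set z : (L ≃ₐ[K] L) → L := fun τ => if τ = 1 then y / algebraMap K L c else τ y with hz
    have hprod : algebraMap K L (Algebra.norm K y / c - 1) = ∏ τ : L ≃ₐ[K] L, z τ - 1 := by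
      rw [map_sub, map_one, map_div₀, Algebra.norm_eq_prod_automorphisms]
      congr 1
      rw [← Finset.mul_prod_erase Finset.univ z (Finset.mem_univ (1 : L ≃ₐ[K] L)),
        ← Finset.mul_prod_erase Finset.univ (fun τ : L ≃ₐ[K] L => τ y)
          (Finset.mem_univ (1 : L ≃ₐ[K] L))]
      have h1 : z 1 = y / algebraMap K L c := by simp [hz]
      have h2 : ∏ τ ∈ Finset.univ.erase (1 : L ≃ₐ[K] L), z τ =
          ∏ τ ∈ Finset.univ.erase (1 : L ≃ₐ[K] L), τ y := by
        refine Finset.prod_congr rfl fun τ hτ => ?_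
        simp [hz, Finset.ne_of_mem_erase hτ]
      rw [h1, h2, AlgEquiv.one_apply]
      ring
    rw [hprod]
    have hexp : WithZero.exp (-(n : ℤ)) ^ e = WithZero.exp (-((e * n : ℕ) : ℤ)) := by
      rw [← WithZero.exp_nsmul]
      congr 1
      push_cast
      simp [mul_comm]
    rw [hexp]
    refine val_prod_sub_one_le w Finset.univ z (e * n) fun τ _ => ?_
    by_cases hτ : τ = 1
    · have hmem : w ∈ T := by
        rw [hT, Finset.mem_image]
        exact ⟨1, Finset.mem_univ _, galSmul_one K L w⟩
      have h := hy w hmem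
      simp only [hx, if_true] at h
      simpa [hz, hτ] using h
    · have hz' : z τ - 1 = τ (y - 1) := by
        simp [hz, hτ]
      rw [hz', valuation_apply_eq]
      have hne : galSmul K L τ⁻¹ w ≠ w :=
        galSmul_ne_of_ne K L hp hdeg w w' hww' hw'.symm τ⁻¹ (inv_ne_one.mpr hτ)
      have hmem : galSmul K L τ⁻¹ w ∈ T := by
        rw [hT, Finset.mem_image]
        exact ⟨τ⁻¹, Finset.mem_univ _, rfl⟩
      have h := hy _ hmem
      simp only [hx, if_neg hne, div_one] at h
      exact h
  -- invert
  intro n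
  obtain ⟨y, hy0, hy⟩ := key b hb (n + 1)
  refine ⟨y, hy0, ?_⟩
  have h1 : b / Algebra.norm K y = (Algebra.norm K y / b)⁻¹ := by
    rw [inv_div]
  rw [h1]
  refine (Approx.val_inv_sub_one_le _ hy).trans ?_
  rw [WithZero.exp_le_exp]
  push_cast
  omega

/-- **Hasse norm theorem, consumer form**: it suffices to be a local norm at the nonsplit
places. -/
theorem hasse_norm_of_nonsplit [IsGalois K L] {p : ℕ} (hp : p.Prime)
    (hdeg : Module.finrank K L = p) (σ : L ≃ₐ[K] L)
    (hσ : ∀ τ : L ≃ₐ[K] L, τ ∈ Subgroup.zpowers σ)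
    (hA3 : NormIndexIneq K L) (hHerb : UnitHerbrand K L p σ) (hloc : LocalFirstIneqRam K L)
    (b : K) (hb : b ≠ 0)
    (h : ∀ v : HeightOneSpectrum (𝓞 K), Nonsplit K L v → ApproxNorm K L v b) :
    ∃ y : L, Algebra.norm K y = b := by
  refine hasse_norm K L hp hdeg σ hσ hA3 hHerb hloc b hb fun v => ?_
  by_cases hv : Nonsplit K L v
  · exact h v hv
  · exact approxNorm_of_not_nonsplit K L hp hdeg v hv b hb

end Fermat.Agent.CFT.Global.HasseNorm
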