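import Fermat.Agent.CFT.Global.HasseNorm.GaloisVal
import Fermat.Agent.CFT.Global.HasseNorm.Principal

/-!
# `H¹(G, T-units of L) = 0` when `Cl_T(K) = 0` and `T` contains the ramified primes (brick B7)
-/

set_option autoImplicit false

open scoped NumberField WithZero
open IsDedekindDomain

namespace Fermat.Agent.CFT.Global.HasseNorm

variable (K L : Type*) [Field K] [NumberField K] [Field L] [NumberField L] [Algebra K L]

/-- The map `y ↦ σ y / y` on `Lˣ`. -/
noncomputable def subOneHom (σ : L ≃ₐ[K] L) : Lˣ →* Lˣ where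
  toFun y := Units.map (σ : L →* L) y / y
  map_one' := by simp
  map_mul' a b := by
    rw [map_mul]
    exact mul_div_mul_comm _ _ _ _

variable {K L} in
@[simp] theorem coe_subOneHom (σ : L ≃ₐ[K] L) (y : Lˣ) :
    ((subOneHom K L σ y : Lˣ) : L) = σ (y : L) / (y : L) := by
  simp [subOneHom, Units.val_div_eq_div_val]

/-- Hilbert 90 for a finite cyclic Galois extension (universe polymorphic, Lagrange resolvent):
if `N(u) = 1` and `σ` generates the Galois group, there is `y ≠ 0` with `u * σ y = y`. -/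
theorem exists_ne_zero_mul_apply_eq_of_norm_eq_one {K L : Type*} [Field K] [Field L] [Algebra K L]
    [FiniteDimensional K L] [IsGalois K L]
    (σ : L ≃ₐ[K] L) (hσ : ∀ τ : L ≃ₐ[K] L, τ ∈ Subgroup.zpowers σ) (u : L)
    (hu : Algebra.norm K u = 1) : ∃ y : L, y ≠ 0 ∧ u * σ y = y := by
  classical
  set n := orderOf σ with hn
  have hn0 : 0 < n := orderOf_pos σ
  let a : ℕ → L := fun i => ∏ j ∈ Finset.range i, (σ ^ j) u
  have ha0 : a 0 = 1 := by simp [a]
  have ha_succ : ∀ i, a (i + 1) = u * σ (a i) := by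
    intro i
    simp only [a]
    rw [Finset.prod_range_succ', map_prod, pow_zero, AlgEquiv.one_apply, mul_comm]
    congr 1
    refine Finset.prod_congr rfl (fun j _ => ?_)
    rw [pow_succ']
    rfl
  have han : a n = 1 := by
    have h1 : algebraMap K L (Algebra.norm K u) = ∏ τ : L ≃ₐ[K] L, τ u :=
      Algebra.norm_eq_prod_automorphisms K u
    have h2 : (∏ τ : L ≃ₐ[K] L, τ u) = a n := by
      rw [← IsCyclic.image_range_orderOf hσ, Finset.prod_image]
      intro i hi j hj hij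
      exact pow_injOn_Iio_orderOf (by simpa using hi) (by simpa using hj) hij
    rw [← h2, ← h1, hu, map_one]
  have hli : LinearIndependent L (fun i : Fin n => (((σ ^ (i : ℕ) : L ≃ₐ[K] L) : L →* L) : L → L)) := by
    refine LinearIndependent.comp (linearIndependent_monoidHom L L)
      (fun i : Fin n => ((σ ^ (i : ℕ) : L ≃ₐ[K] L) : L →* L)) ?_
    intro i j hij
    have h' : σ ^ (i : ℕ) = σ ^ (j : ℕ) := by
      ext x
      exact DFunLike.congr_fun hij x
    exact Fin.ext (pow_injOn_Iio_orderOf (Set.mem_Iio.2 i.2) (Set.mem_Iio.2 j.2) h')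
  obtain ⟨θ, hθ⟩ : ∃ θ, ∑ i ∈ Finset.range n, a i * (σ ^ i) θ ≠ 0 := by
    by_contra hcon
    simp only [not_exists, not_not] at hcon
    have h0 := Fintype.linearIndependent_iff.1 hli (fun i => a i) (by
      funext θ
      have := hcon θ
      rw [← Fin.sum_univ_eq_sum_range (fun i => a i * (σ ^ i) θ) n] at this
      simpa [Finset.sum_apply] using this) ⟨0, hn0⟩
    simp [ha0] at h0
  refine ⟨_, hθ, ?_⟩
  rw [map_sum, Finset.mul_sum]
  have hstep : ∀ i ∈ Finset.range n, u * σ (a i * (σ ^ i) θ) = a (i + 1) * (σ ^ (i + 1)) θ := by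
    intro i _
    rw [map_mul, ← mul_assoc, ← ha_succ, pow_succ']
    rfl
  rw [Finset.sum_congr rfl hstep]
  have e1 := Finset.sum_range_succ' (fun i => a i * (σ ^ i) θ) n
  have e2 := Finset.sum_range_succ (fun i => a i * (σ ^ i) θ) n
  have hFn : a n * (σ ^ n) θ = a 0 * (σ ^ 0) θ := by
    rw [han, ha0, hn, pow_orderOf_eq_one, pow_zero]
  rw [e2, hFn] at e1
  exact add_right_cancel e1.symm


/-- Hilbert 90 for `T`-units: if `Cl_T(K) = 0` and the primes outside `T` are unramified, a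
`T`-unit of `L` of norm `1` is `σ y / y` for a `T`-unit `y`. -/
theorem exists_unit_subOne_of_norm_eq_one [IsGalois K L] (σ : L ≃ₐ[K] L)
    (hσ : ∀ τ : L ≃ₐ[K] L, τ ∈ Subgroup.zpowers σ)
    (T : Set (HeightOneSpectrum (𝓞 K))) (hT : PrincipalOutside K T)
    (hR : ValCompatOutside K L T)
    (u : Lˣ) (hu : u ∈ (above K L T).unit L) (hN : normHom K L u = 1) :
    ∃ y : Lˣ, y ∈ (above K L T).unit L ∧ subOneHom K L σ y = u := by
  classical
  have : FiniteDimensional K L := Module.Finite.of_restrictScalars_finite ℚ K L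
  have hN' : Algebra.norm K (u : L) = 1 := by
    have := congrArg (fun x : Kˣ => (x : K)) hN
    simpa [normHom] using this
  obtain ⟨z, hz0, hz⟩ := exists_ne_zero_mul_apply_eq_of_norm_eq_one σ hσ (u : L) hN'
  -- `y₀ := z⁻¹` satisfies `σ y₀ = u * y₀`
  have hσz0 : σ z ≠ 0 := (map_ne_zero σ).2 hz0
  set y₀ : L := z⁻¹ with hy₀
  have hy₀0 : y₀ ≠ 0 := inv_ne_zero hz0
  have hu0 : (u : L) ≠ 0 := u.ne_zero
  have hσy₀ : σ y₀ = (u : L) * y₀ := by
    rw [hy₀, map_inv₀]
    have hz' : z = (u : L) * σ z := hz.symm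
    calc (σ z)⁻¹ = (u : L) * ((u : L) * σ z)⁻¹ := by field_simp
      _ = (u : L) * z⁻¹ := by rw [← hz']
  -- the valuations of `y₀` outside `T` are Galois invariant
  have hstep : ∀ w : HeightOneSpectrum (𝓞 L), w.under (𝓞 K) ∉ T →
      (galSmul K L σ⁻¹ w).valuation L y₀ = w.valuation L y₀ := by
    intro w hw
    have h1 : w.valuation L (u : L) = 1 := hu w hw
    have h2 := valuation_galSmul K L σ⁻¹ w (σ y₀)
    have h3 : σ⁻¹ (σ y₀) = y₀ := by
      change (σ⁻¹ * σ) y₀ = y₀
      rw [inv_mul_cancel]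
      rfl
    rw [h3] at h2
    rw [h2, hσy₀, map_mul, h1, one_mul]
  have hpow : ∀ (n : ℕ) (w : HeightOneSpectrum (𝓞 L)), w.under (𝓞 K) ∉ T →
      (galSmul K L (σ⁻¹ ^ n) w).valuation L y₀ = w.valuation L y₀ := by
    intro n
    induction n with
    | zero => intro w _; rw [pow_zero, galSmul_one]
    | succ n ih =>
      intro w hw
      rw [pow_succ, galSmul_mul, ih _ (by rw [under_galSmul]; exact hw), hstep w hw]
  have hall : ∀ (τ : L ≃ₐ[K] L) (w : HeightOneSpectrum (𝓞 L)), w.under (𝓞 K) ∉ T →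
      (galSmul K L τ w).valuation L y₀ = w.valuation L y₀ := by
    intro τ w hw
    have hτ : τ ∈ Subgroup.zpowers σ⁻¹ := by
      rw [Subgroup.zpowers_inv]
      exact hσ τ
    obtain ⟨n, rfl⟩ := mem_powers_iff_mem_zpowers.2 hτ
    exact hpow n w hw
  -- the norm of `y₀`
  set b : K := Algebra.norm K y₀ with hb
  have hb0 : b ≠ 0 := Algebra.norm_ne_zero_iff.2 hy₀0
  set N : ℕ := Fintype.card (L ≃ₐ[K] L) with hNdef
  have hNpos : 0 < N := Fintype.card_pos
  have hnorm : ∀ w : HeightOneSpectrum (𝓞 L), w.under (𝓞 K) ∉ T →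
      (w.under (𝓞 K)).valuation K b = w.valuation L y₀ ^ N := by
    intro w hw
    rw [← hR w hw b, hb, valuation_norm K L w y₀]
    rw [Finset.prod_congr rfl (fun τ _ => hall τ w hw), Finset.prod_const, Finset.card_univ]
  -- the exponents
  let c : HeightOneSpectrum (𝓞 K) → ℤ := fun v => WithZero.log (v.valuation K b) / (N : ℤ)
  have hc : {v | v ∉ T ∧ c v ≠ 0}.Finite := by
    refine (finite_valuation_ne_one K b hb0).subset ?_
    rintro v ⟨_, hv⟩ h1
    apply hv
    simp only [c]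
    rw [h1, WithZero.log_one, Int.zero_ediv]
  obtain ⟨α, hα⟩ := hT.exists_valuation_eq c hc
  have hcw : ∀ w : HeightOneSpectrum (𝓞 L), w.under (𝓞 K) ∉ T →
      WithZero.exp (c (w.under (𝓞 K))) = w.valuation L y₀ := by
    intro w hw
    have hw0 : w.valuation L y₀ ≠ 0 := (Valuation.ne_zero_iff _).2 hy₀0
    simp only [c]
    rw [hnorm w hw, WithZero.log_pow, nsmul_eq_mul,
      Int.mul_ediv_cancel_left _ (by exact_mod_cast hNpos.ne'), WithZero.exp_log hw0]
  -- the `T`-unit
  have hαL0 : algebraMap K L (α : K) ≠ 0 := (map_ne_zero _).2 α.ne_zero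
  refine ⟨Units.mk0 (y₀ / algebraMap K L (α : K)) (div_ne_zero hy₀0 hαL0), ?_, ?_⟩
  · intro w hw
    change w.valuation L (y₀ / algebraMap K L (α : K)) = 1
    have hw' : w.under (𝓞 K) ∉ T := hw
    rw [map_div₀, hR w hw' (α : K), hα _ hw', hcw w hw']
    exact div_self ((Valuation.ne_zero_iff _).2 hy₀0)
  · apply Units.ext
    rw [coe_subOneHom]
    simp only [Units.val_mk0]
    rw [map_div₀, AlgEquiv.commutes, hσy₀]
    field_simp

/-- Subgroup form: the norm-one `T`-units are exactly `(σ - 1)` of the `T`-units. -/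
theorem unit_inf_ker_normHom_le [IsGalois K L] (σ : L ≃ₐ[K] L)
    (hσ : ∀ τ : L ≃ₐ[K] L, τ ∈ Subgroup.zpowers σ)
    (T : Set (HeightOneSpectrum (𝓞 K))) (hT : PrincipalOutside K T)
    (hR : ValCompatOutside K L T) :
    (above K L T).unit L ⊓ (normHom K L).ker ≤ ((above K L T).unit L).map (subOneHom K L σ) := by
  intro u hu
  obtain ⟨y, hy, hyu⟩ := exists_unit_subOne_of_norm_eq_one K L σ hσ T hT hR u hu.1 hu.2
  exact ⟨y, hy, hyu⟩

end Fermat.Agent.CFT.Global.HasseNorm
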